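import Fermat.Agent.MR.PLC.Abs.Cover

/-!
# MR / PLC / Abs : the sum of two good coordinates with disjoint poles is a good coordinate

`good_add` : if `x`, `c` are good coordinates (`S33.Cover.Good T x` : non constant reductions, `deg (x)_∞ = ∑ deg (x̄_w)_∞`) and the reductions `x̄_w`, `c̄_w` have no common pole,
then `x + c` is a good coordinate, and the poles of `x + c` are the poles of `x` and the poles of `c`.
-/

set_option autoImplicit false
set_option linter.unusedSectionVars false

noncomputable section

namespace Fermat.Agent.MR.PLC.Abs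

open AlgebraicCurve Fermat.Agent.Lib.RR Fermat.Agent.GAL.RED Fermat.Agent.DR.Abs
  Fermat.Agent.S36.Abs Fermat.Agent.S33.Cover

section one

variable {k L : Type*} [Field k] [Field L] [Algebra k L] [IsFF k L] [IsAlgClosed k]

/-- `(u + v)_∞ ≤ (u)_∞ + (v)_∞`. -/
theorem poleDiv_add_le (u v : L) :
    poleDiv (K := k) (u + v) ≤ poleDiv (K := k) u + poleDiv (K := k) v := by
  intro P
  rw [Finsupp.add_apply, poleDiv_apply, poleDiv_apply, poleDiv_apply]
  by_cases h : u + v = 0
  · rw [h, Place.ord_zero]
    have h1 := le_max_right (-(P.ord u)) 0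
    have h2 := le_max_right (-(P.ord v)) 0
    simp only [neg_zero, max_self]
    omega
  · have h0 := min_le_ord_add P h
    have h1 := le_max_right (-(P.ord u)) 0
    have h2 := le_max_right (-(P.ord v)) 0
    have h3 := le_max_left (-(P.ord u)) 0
    have h4 := le_max_left (-(P.ord v)) 0
    rcases min_le_iff.1 h0 with h5 | h5
    · exact max_le (by omega) (by omega)
    · exact max_le (by omega) (by omega)

/-- `(u + v)_∞ = (u)_∞ + (v)_∞` if `u` and `v` have no common pole. -/
theorem poleDiv_add_of_disjoint {u v : L} (h : ∀ P : Place k L, 0 ≤ P.ord u ∨ 0 ≤ P.ord v) :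
    poleDiv (K := k) (u + v) = poleDiv (K := k) u + poleDiv (K := k) v := by
  ext P
  rw [Finsupp.add_apply, poleDiv_apply, poleDiv_apply, poleDiv_apply]
  by_cases hu : 0 ≤ P.ord u
  · by_cases hv : 0 ≤ P.ord v
    · have := ord_add_nonneg P hu hv
      rw [max_eq_right (by omega), max_eq_right (by omega), max_eq_right (by omega)]
      rfl
    · push Not at hv
      have hv0 : v ≠ 0 := by
        rintro rfl
        rw [Place.ord_zero] at hv
        exact lt_irrefl _ hv
      rcases eq_or_ne u 0 with rfl | hu0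
      · rw [zero_add, Place.ord_zero]
        simp
      · have := ord_add_eq_of_lt P hv0 hu0 (lt_of_lt_of_le hv hu)
        rw [add_comm, this, max_eq_right (a := -(P.ord u)) (by omega), zero_add]
  · push Not at hu
    have hv : 0 ≤ P.ord v := (h P).resolve_left (not_le.2 hu)
    have hu0 : u ≠ 0 := by
      rintro rfl
      rw [Place.ord_zero] at hu
      exact lt_irrefl _ hu
    rcases eq_or_ne v 0 with rfl | hv0
    · rw [add_zero, Place.ord_zero]
      simp
    · have := ord_add_eq_of_lt P hu0 hv0 (lt_of_lt_of_le hu hv)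
      rw [this, max_eq_right (a := -(P.ord v)) (by omega), add_zero]

end one

variable {K E k : Type*} [Field K] [Field E] [Algebra K E] [Field k] {Ω : Type*}
  {Fb : Ω → Type*} [∀ w, Field (Fb w)] [∀ w, Algebra k (Fb w)]
  [Fintype Ω] [IsFF K E] [IsAlgClosed K] [∀ w, IsFF k (Fb w)] [IsAlgClosed k]
  {T : MultiRed K E k Fb}

/-- **The sum of two good coordinates without common poles (on the special fibre).** -/
theorem good_add {x c : E} (hx : Good T x) (hc : Good T c)
    (hd : ∀ (w : Ω) (P : Place k (Fb w)),
      0 ≤ P.ord ((T.R w).red x) ∨ 0 ≤ P.ord ((T.R w).red c)) :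
    Good T (x + c) ∧ ∀ P : Place K E, 0 ≤ P.ord (x + c) → 0 ≤ P.ord x ∧ 0 ≤ P.ord c := by
  have hxO : ∀ w, x ∈ (T.R w).O := fun w =>
    (T.R w).mem_of_red_ne_zero (fun h => hx.nonconst w ⟨0, by rw [h, map_zero]⟩)
  have hcO : ∀ w, c ∈ (T.R w).O := fun w =>
    (T.R w).mem_of_red_ne_zero (fun h => hc.nonconst w ⟨0, by rw [h, map_zero]⟩)
  have hred : ∀ w, (T.R w).red (x + c) = (T.R w).red x + (T.R w).red c := fun w =>
    (T.R w).red_add (hxO w) (hcO w)
  have hpole : ∀ w, poleDiv (K := k) ((T.R w).red (x + c))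
      = poleDiv (K := k) ((T.R w).red x) + poleDiv (K := k) ((T.R w).red c) := fun w => by
    rw [hred]
    exact poleDiv_add_of_disjoint (hd w)
  have hnc : ∀ w, (T.R w).red (x + c) ∉ Set.range (algebraMap k (Fb w)) := by
    rintro w ⟨a, ha⟩
    have h1 := hpole w
    have h2 : poleDiv (K := k) ((T.R w).red (x + c)) = 0 := by
      ext P
      rw [← ha, poleDiv_apply, ord_algebraMap]
      simp
    have h3 := congrArg Divisor.degree h1
    rw [h2, map_zero, map_add] at h3
    have h4 := degree_poleDiv_pos (hx.nonconst w)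
    have h5 := degree_poleDiv_pos (hc.nonconst w)
    omega
  have hsum : ∑ w, Divisor.degree (poleDiv (K := k) ((T.R w).red (x + c)))
      = Divisor.degree (poleDiv (K := K) x) + Divisor.degree (poleDiv (K := K) c) := by
    rw [hx.deg, hc.deg, ← Finset.sum_add_distrib]
    exact Finset.sum_congr rfl fun w _ => by rw [hpole, map_add]
  have hle := T.sum_degree_poleDiv_red_le hx.sep (x + c) hnc
  have hle2 : Divisor.degree (poleDiv (K := K) (x + c))
      ≤ Divisor.degree (poleDiv (K := K) x + poleDiv (K := K) c) :=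
    degree_mono (poleDiv_add_le x c)
  rw [map_add] at hle2
  have hdeg : Divisor.degree (poleDiv (K := K) (x + c))
      = Divisor.degree (poleDiv (K := K) x) + Divisor.degree (poleDiv (K := K) c) := by
    omega
  refine ⟨⟨hx.sep, hnc, by rw [hdeg, hsum]⟩, fun P hP => ?_⟩
  have h0 : poleDiv (K := K) x + poleDiv (K := K) c - poleDiv (K := K) (x + c) = 0 := by
    apply eq_zero_of_nonneg_of_degree
    · exact sub_nonneg.2 (poleDiv_add_le x c)
    · rw [map_sub, map_add, hdeg, sub_self]
  have h1 := DFunLike.congr_fun h0 P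
  rw [Finsupp.sub_apply, Finsupp.add_apply, poleDiv_apply, poleDiv_apply, poleDiv_apply,
    Finsupp.zero_apply, max_eq_right (a := -(P.ord (x + c))) (by omega)] at h1
  have h2 := le_max_right (-(P.ord x)) 0
  have h3 := le_max_right (-(P.ord c)) 0
  have h4 := le_max_left (-(P.ord x)) 0
  have h5 := le_max_left (-(P.ord c)) 0
  constructor <;> omega

end Fermat.Agent.MR.PLC.Abs
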