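import Fermat.Agent.MR.PLC.Abs.FactD
import Fermat.Agent.S36.Norm.Tools.Branch

/-!
# MR / PLC / Abs : THE SLOPE FORMULA on a split cover (OUTPUT of block PLC-ABS)

* `slope_formula_cover` : the final statement;
* `isCoord_cover`, `isMeter_cover` : a coordinate / a meter on `F` gives a coordinate / a meter on `E`.
-/

set_option autoImplicit false
set_option linter.unusedSectionVars false

noncomputable section

namespace Fermat.Agent.MR.PLC.Abs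

open AlgebraicCurve Fermat.Agent.Lib.RR Fermat.Agent.GAL.RED Fermat.Agent.DR.Abs Fermat.Agent.S36.RC
  Fermat.Agent.S36.Abs Fermat.Agent.S33.Cover

variable {K0 F0 E0 K F E k : Type*} [Field K0] [Field F0] [Field E0] [Algebra K0 E0] [Field K]
  [Field F] [Field E] [Algebra K F] [Algebra K E] [Algebra F E] [IsScalarTower K F E]
  [Algebra K0 K] [Field k] {ι : Type*} {Fb : ι → Type*} [∀ i, Field (Fb i)]
  [∀ i, Algebra k (Fb i)] [FiniteDimensional F E] [IsGalois F E]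
  {T : MultiRed K F k Fb} {T' : MultiRed K E k (fun j : ι × (E ≃ₐ[F] E) => Fb j.1)}
  {B : BC K0 E0 K E} {ϖ : K0} {Γ : Subgroup (SemilinearAut K E)} {βF : F0 →+* F}
  [Fintype ι] [IsFF K E] [IsAlgClosed K] [∀ i, IsFF k (Fb i)] [IsAlgClosed k]

/-- **THE SLOPE FORMULA ON A SPLIT COVER.** -/
theorem slope_formula_cover (h : SplitCover T T') {Nd' : Type*} [Fintype Nd'] {x' : E}
    {N' : NodeData k (fun j : ι × (E ≃ₐ[F] E) => Fb j.1) Nd'} {a₁ : ℕ}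
    (hN' : IsPreNodal T' x' N' a₁) (hloop : ∀ e, N'.i₁ e ≠ N'.i₂ e) (hB : Base T' ϖ)
    (hind : ∀ (n : ℕ) (z : Fin n → E0), LinearIndependent K0 z →
      LinearIndependent K (fun i => B.β (z i)))
    (hΓ : GalAct T' B Γ) (hDF : FactD T βF ϖ)
    (hcomm : ∀ γ ∈ Γ, ∀ (g : E ≃ₐ[F] E) (y : E), γ • g y = g (γ • y))
    (hfixF : ∀ y : F, (∀ γ ∈ Γ, γ • algebraMap F E y = algebraMap F E y) → y ∈ Set.range βF)
    {x0 ξ0 : E0} (hx : B.β x0 = x') (hξ : IsCoord T' (B.β ξ0) N')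
    (hxξ : ∀ P : Place K E, 0 ≤ P.ord (B.β ξ0) → 0 ≤ P.ord x') {m : ℕ}
    {Ψ : ι × (E ≃ₐ[F] E) → E} (hΨ : IsMeter T' (algebraMap K0 K ϖ) (B.β ξ0) N' m Ψ)
    {p : ℕ} (hp : 0 < p) {f : E0} (hf : f ≠ 0)
    (hdiv : ∀ P : Place K E, (p : ℤ) ∣ P.ord (B.β f)) :
    ∃ i : ι × (E ≃ₐ[F] E) → ℤ, (∀ w, (T'.R w).red (B.β f / cE K E ϖ ^ i w) ≠ 0) ∧
      (∀ e, (p : ℤ) ∣ (N'.p₁ e).ord ((T'.R (N'.i₁ e)).red (B.β f / cE K E ϖ ^ i (N'.i₁ e)))
        - (i (N'.i₂ e) - i (N'.i₁ e))) ∧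
      (∀ e, (p : ℤ) ∣ (N'.p₂ e).ord ((T'.R (N'.i₂ e)).red (B.β f / cE K E ϖ ^ i (N'.i₂ e)))
        - (i (N'.i₁ e) - i (N'.i₂ e))) ∧
      ∀ (w : ι × (E ≃ₐ[F] E)) (P : Place k (Fb w.1)), (∀ s, N'.branch s ≠ ⟨w, P⟩) →
        (p : ℤ) ∣ P.ord ((T'.R w).red (B.β f / cE K E ϖ ^ i w)) :=
  slope_formula_rat (rat_cover h hN'.cart hN'.sep hB hind hΓ hDF hcomm hfixF) hN' hloop hx hξ hxξ
    hΨ hp hf hdiv

variable [IsFF K F] {Nd : Type*}

/-- a coordinate on `F` is a coordinate on `E`. -/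
theorem isCoord_cover (h : SplitCover T T') (hST : T.Sep) (hS : T'.Sep) {ξ : F}
    {N : NodeData k Fb Nd} (hξ : IsCoord T ξ N)
    (hdeg : Divisor.degree (poleDiv (K := K) (algebraMap F E ξ)) =
      Fintype.card (E ≃ₐ[F] E) * Divisor.degree (poleDiv (K := K) ξ))
    (b : Nd → (E ≃ₐ[F] E)) : IsCoord T' (algebraMap F E ξ) (coverNodes N b) := by
  have hG := h.good hS ⟨hST, hξ.nonconst, hξ.deg⟩ hdeg
  refine ⟨hG.nonconst, hG.deg, fun e => ?_, fun e => ?_⟩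
  · have := hξ.node₁ e.1
    rw [← h.red_algebraMap (N.i₁ e.1) e.2] at this
    exact this
  · have := hξ.node₂ e.1
    rw [← h.red_algebraMap (N.i₂ e.1) (e.2 * b e.1)] at this
    exact this

/-- a meter on `F` is a meter on `E`. -/
theorem isMeter_cover (h : SplitCover T T') {π : K} {ξ : F} {N : NodeData k Fb Nd} {m : ℕ}
    {Ψ : ι → F} (hΨ : IsMeter T π ξ N m Ψ) (b : Nd → (E ≃ₐ[F] E)) :
    IsMeter T' π (algebraMap F E ξ) (coverNodes N b) m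
      (fun w => algebraMap F E (Ψ w.1)) := by
  have e1 : ∀ (y : F) (w : ι × (E ≃ₐ[F] E)),
      (T'.R w).red (algebraMap F E y / algebraMap K E π ^ m)
        = (T.R w.1).red (y / algebraMap K F π ^ m) := by
    intro y w
    rw [← h.red_algebraMap w.1 w.2, map_div₀, map_pow, ← IsScalarTower.algebraMap_apply]
  refine ⟨hΨ.pos, fun w w' => ?_, fun w => ?_, fun w => ?_, fun e => ?_, fun e => ?_,
    fun e => ?_, fun e => ?_⟩
  · rw [e1]
    rcases hΨ.dich w.1 w'.1 with h1 | h1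
    · exact Or.inl h1
    · right
      have := h.red_algebraMap w'.1 w'.2 (Ψ w.1)
      rw [this]
      exact h1
  · rw [e1]
    exact hΨ.self w.1
  · rw [← map_inv₀]
    exact S36.Norm.exists_mem_L_algebraMap (hΨ.reg w.1)
  · have := h.red_algebraMap (N.i₁ e.1) e.2 (Ψ (N.i₂ e.1))
    exact this ▸ hΨ.unit₁ e.1
  · have := h.red_algebraMap (N.i₂ e.1) (e.2 * b e.1) (Ψ (N.i₁ e.1))
    exact this ▸ hΨ.unit₂ e.1
  · have := h.red_algebraMap (N.i₁ e.1) e.2 (Ψ (N.i₂ e.1))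
    exact this ▸ hΨ.ord₁ e.1
  · have := h.red_algebraMap (N.i₂ e.1) (e.2 * b e.1) (Ψ (N.i₁ e.1))
    exact this ▸ hΨ.ord₂ e.1

end Fermat.Agent.MR.PLC.Abs
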