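import Fermat.Agent.MR.PLA.Main
import Fermat.Agent.S36.RC.Conc.Kum
import Fermat.Agent.S36.Abs.LyingOver.Defs
import Fermat.Agent.S33.Cover.Unique

/-!
# MR / PLC / Abs : the slope formula for a rational function on a nodal reduction.  Definitions = CONTRACT.

`K` algebraically closed, valued (`T.A`), residue field `k`; `E / K` a function field with a NODAL family of reductions `T : MultiRed K E k Fb`
(`IsPreNodal T x N a₀`; application: the output of `S33.Cover`).
`K0 ⊆ K` discretely valued with uniformiser `ϖ` (`Base`), `E0 ⊆ E` a `K0`-structure (`B : S36.RC.BC K0 E0 K E`, `β = B.β : E0 → E`).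

* `Base T ϖ`  : `K0` is discretely valued, same residue field, `K` of rank one;
* `FactD T β ϖ` : all the valuations of `T` are unramified on `E0` : `|β z|_w ∈ |ϖ|^ℤ`;
* `Rat T B ϖ` : `Base` + linear disjointness + `E = K · E0` + `FactD`;
* `IsCoord T ξ N` : a coordinate `ξ` whose polar divisor reduces well and avoids the nodes;
* `IsMeter T π ξ N m Ψ` : the meter: `Ψ w` vanishes to the order `m` (in units of `π`) along the component `w` (and perhaps other components), it is a unit on the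
  other components, a unit outside the poles of `ξ`, and its reduction vanishes to the order `≥ m` at the nodes ("thickness one").

OUTPUT: `Main.lean`, `slope_formula_rat`;  `Cover.lean`, `slope_formula_cover` (with `FactD` on `E0` deduced from `FactD` on `F0`).
-/

set_option autoImplicit false

noncomputable section

namespace Fermat.Agent.MR.PLC.Abs

open AlgebraicCurve Fermat.Agent.Lib.RR Fermat.Agent.GAL.RED Fermat.Agent.DR.Abs Fermat.Agent.S36.RC
  Fermat.Agent.S36.Abs

variable {K0 E0 K E k : Type*} [Field K0] [Field E0] [Algebra K0 E0] [Field K] [Field E]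
  [Algebra K E] [Algebra K0 K] [Field k] {Ω : Type*} {Fb : Ω → Type*} [∀ w, Field (Fb w)]
  [∀ w, Algebra k (Fb w)] {Nd : Type*}

/-- the image in `E` of a constant of `K0`. -/
abbrev cE (K E : Type*) {K0 : Type*} [Field K0] [Field K] [Field E] [Algebra K E] [Algebra K0 K]
    (a : K0) : E := algebraMap K E (algebraMap K0 K a)

/-- `K0 ⊆ K` is discretely valued with uniformiser `ϖ` and the same residue field; `K` has rank one. -/
structure Base (T : MultiRed K E k Fb) (ϖ : K0) : Prop where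
  ne : ϖ ≠ 0
  mem : algebraMap K0 K ϖ ∈ T.A
  redA : T.redA (algebraMap K0 K ϖ) = 0
  noeth : IsNoetherianRing (T.A.comap (algebraMap K0 K))
  resA : ∀ c : k, ∃ a : K0, algebraMap K0 K a ∈ T.A ∧ T.redA (algebraMap K0 K a) = c
  arch : ∀ b : K, ∃ s : ℕ, b * algebraMap K0 K ϖ ^ s ∈ T.A

/-- FACT D : the valuations of `T` are unramified on the image of `β`. -/
def FactD (T : MultiRed K E k Fb) (β : E0 →+* E) (ϖ : K0) : Prop :=
  ∀ (w : Ω) (z : E0), z ≠ 0 → ∃ n : ℤ, (T.R w).red (β z / cE K E ϖ ^ n) ≠ 0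

/-- The rational structure. -/
structure Rat (T : MultiRed K E k Fb) (B : BC K0 E0 K E) (ϖ : K0) : Prop extends Base T ϖ where
  /-- linear disjointness -/
  indep : ∀ (n : ℕ) (z : Fin n → E0), LinearIndependent K0 z →
    LinearIndependent K (fun i => B.β (z i))
  /-- `E = K · E0` -/
  gen : ∀ y : E, y ∈ Submodule.span K (Set.range B.β)
  factD : FactD T B.β ϖ

/-- A coordinate: the polar divisor of `ξ` reduces well and avoids the nodes. -/
structure IsCoord [HasPrincipalDivisors K E] [∀ w, HasPrincipalDivisors k (Fb w)] [Fintype Ω]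
    (T : MultiRed K E k Fb) (ξ : E) (N : NodeData k Fb Nd) : Prop where
  nonconst : ∀ w, (T.R w).red ξ ∉ Set.range (algebraMap k (Fb w))
  deg : Divisor.degree (poleDiv (K := K) ξ)
    = ∑ w, Divisor.degree (poleDiv (K := k) ((T.R w).red ξ))
  node₁ : ∀ e, 0 ≤ (N.p₁ e).ord ((T.R (N.i₁ e)).red ξ)
  node₂ : ∀ e, 0 ≤ (N.p₂ e).ord ((T.R (N.i₂ e)).red ξ)

/-- The meter. -/
structure IsMeter [HasPrincipalDivisors K E] (T : MultiRed K E k Fb) (π : K) (ξ : E)
    (N : NodeData k Fb Nd) (m : ℕ) (Ψ : Ω → E) : Prop where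
  pos : 0 < m
  /-- on every component `Ψ w` is a unit, or `π ^ m` times a unit -/
  dich : ∀ w w', (T.R w').red (Ψ w / algebraMap K E π ^ m) ≠ 0 ∨ (T.R w').red (Ψ w) ≠ 0
  self : ∀ w, (T.R w).red (Ψ w / algebraMap K E π ^ m) ≠ 0
  /-- `1 / Ψ w` is regular outside the poles of `ξ` -/
  reg : ∀ w, ∃ a : ℕ, (Ψ w)⁻¹ ∈ riemannRochSpace (a • poleDiv (K := K) ξ)
  unit₁ : ∀ e, (T.R (N.i₁ e)).red (Ψ (N.i₂ e)) ≠ 0
  unit₂ : ∀ e, (T.R (N.i₂ e)).red (Ψ (N.i₁ e)) ≠ 0
  ord₁ : ∀ e, (m : ℤ) ≤ (N.p₁ e).ord ((T.R (N.i₁ e)).red (Ψ (N.i₂ e)))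
  ord₂ : ∀ e, (m : ℤ) ≤ (N.p₂ e).ord ((T.R (N.i₂ e)).red (Ψ (N.i₁ e)))

end Fermat.Agent.MR.PLC.Abs
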