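import Fermat.Agent.MR.PLC.Abs.Main

/-!
# MR / PLC / Abs : FACT D on a split cover.

`E / F` Galois, all the valuations of `T` split completely (`S33.Cover.SplitCover T T'`).  `Γ` a group of semilinear automorphisms of `E` which preserves the valuations of `T'`, with finite
orbits, `E0 = E ^ Γ`, `F0 = F ^ Γ`, `Γ` commutes with `Gal(E/F)`.  If the valuations of `T` are unramified on `F0` then the valuations of `T'` are unramified on `E0`.

PROOF.  Deep idempotents: by `T'.Sep` there is `ε ∈ E` with `1 - ε ∈ ϖ ^ M O_w`, `ε ∈ ϖ ^ M O_w'` (`w' ≠ w`); the product of its (finite) `Γ`-orbit is rational, with the same properties.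
For `z ∈ E0`, `y = z ε + (1 - ε)` (`M` large) has `|y|_w = |z|_w`, `|y|_w' = 1`.  So `|N_{E/F} y|_i = |z|_w`, `w = (i, g)`.
-/

set_option autoImplicit false
set_option linter.unusedSectionVars false

noncomputable section

namespace Fermat.Agent.MR.PLC.Abs

open AlgebraicCurve Fermat.Agent.Lib.RR Fermat.Agent.GAL.RED Fermat.Agent.DR.Abs Fermat.Agent.S36.RC
  Fermat.Agent.S36.Abs Fermat.Agent.S33.Cover

section General

variable {K0 E0 K E k : Type*} [Field K0] [Field E0] [Algebra K0 E0] [Field K] [Field E]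
  [Algebra K E] [Algebra K0 K] [Field k] {Ω : Type*} {Fb : Ω → Type*} [∀ w, Field (Fb w)]
  [∀ w, Algebra k (Fb w)] {T : MultiRed K E k Fb} {B : BC K0 E0 K E} {ϖ : K0}

/-- The Galois action: `Γ` preserves the valuations, has finite orbits, and `E0 = E ^ Γ`. -/
structure GalAct (T : MultiRed K E k Fb) (B : BC K0 E0 K E)
    (Γ : Subgroup (SemilinearAut K E)) : Prop where
  Γ_eq : B.Γ = (Γ : Set (SemilinearAut K E))
  fix : ∀ y : E, (∀ γ ∈ Γ, γ • y = y) → y ∈ Set.range B.β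
  orb : ∀ y : E, (Set.range fun γ : Γ => (γ : SemilinearAut K E) • y).Finite
  val : ∀ γ ∈ Γ, ∀ (w : Ω) (y : E), y ∈ (T.R w).O → γ • y ∈ (T.R w).O

/-- LEAF FD1.  `y = 0` trivial.  `hC.exists_scale hy` : `c ≠ 0`, `c • y ∈ T.O`.  `hB.arch c⁻¹` : `s`, `c⁻¹ * π ^ s ∈ T.A`.
`cE ϖ ^ s * y = (c⁻¹ * π ^ s) • (c • y)` (`Algebra.smul_def`, `map_mul`, `map_pow`, `map_inv₀`, `field_simp`), `T.smul_mem`. -/
theorem Base.exists_pow_mul_mem (hB : Base T ϖ) (hC : T.IsCartesian) (y : E) :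
    ∃ M : ℕ, cE K E ϖ ^ M * y ∈ T.O := by
  by_cases hy : y = 0
  · refine ⟨0, ?_⟩
    rw [hy, mul_zero]
    exact fun i => (T.R i).O.zero_mem
  have := hC.nonempty
  obtain ⟨c, hc, hcO, -⟩ := hC.exists_scale hy
  obtain ⟨s, hs⟩ := hB.arch c⁻¹
  refine ⟨s, ?_⟩
  have e : cE K E ϖ ^ s * y = (c⁻¹ * algebraMap K0 K ϖ ^ s) • (c • y) := by
    rw [smul_smul, Algebra.smul_def]
    congr 1
    rw [mul_right_comm, inv_mul_cancel₀ hc, one_mul, map_pow]
  rw [e]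
  exact T.smul_mem hs hcO

/-- LEAF FD2.  **Deep idempotents.**  `classical`.  `π := algebraMap K0 K ϖ ≠ 0`.
`hS (Pi.single w 1) (fun w' => if w' = w then 1 else (π ^ M)⁻¹) _` : `h₁` with `red_w h₁ = 1`, `(π ^ M)⁻¹ • h₁ ∈ O_w'` and reduction `0` (`w' ≠ w`).
`hS (fun w' => if w' = w then 0 else 1) (fun w' => if w' = w then (π ^ M)⁻¹ else 1) _` : `h₂` with `(π ^ M)⁻¹ • h₂ ∈ O_w` and reduction `0`, `red_w' h₂ = 1` (`w' ≠ w`).
If `(π ^ M)⁻¹ • h ∈ O` with reduction `0` then `h = π ^ M • ((π ^ M)⁻¹ • h) ∈ O` with reduction `0` (`smul_mem`, `red_smul`, `smul_zero`).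
So `h₁ + h₂` has the reduction `1` on all the components (`red_add`): it is a unit.  `ε := h₁ / (h₁ + h₂)`;
`(1 - ε) / cE ϖ ^ M = ((π ^ M)⁻¹ • h₂) * (h₁ + h₂)⁻¹`, `ε / cE ϖ ^ M = ((π ^ M)⁻¹ • h₁) * (h₁ + h₂)⁻¹` (`Algebra.smul_def`, `field_simp`), `inv_mem_of_red_ne_zero`. -/
theorem exists_deep_idem_K (hB : Base T ϖ) (hS : T.Sep) (w : Ω) (M : ℕ) :
    ∃ ε : E, (1 - ε) / cE K E ϖ ^ M ∈ (T.R w).O ∧
      ∀ w', w' ≠ w → ε / cE K E ϖ ^ M ∈ (T.R w').O := by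
  classical
  have hπ0 : algebraMap K0 K ϖ ≠ 0 := (map_ne_zero (algebraMap K0 K)).mpr hB.ne
  have hP0 : algebraMap K0 K ϖ ^ M ≠ 0 := pow_ne_zero _ hπ0
  have hPA : ∀ i, algebraMap K0 K ϖ ^ M ∈ (T.R i).A := by
    intro i
    rw [T.A_eq i]
    exact T.A.pow_mem hB.mem M
  have hcE : cE K E ϖ ^ M = algebraMap K E (algebraMap K0 K ϖ ^ M) := by
    rw [map_pow]
  have hcE0 : algebraMap K E (algebraMap K0 K ϖ ^ M) ≠ 0 := (map_ne_zero (algebraMap K E)).mpr hP0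
  -- a deep element is integral with reduction `0`
  have hdeep : ∀ (i : Ω) (h : E), (algebraMap K0 K ϖ ^ M)⁻¹ • h ∈ (T.R i).O →
      (T.R i).red ((algebraMap K0 K ϖ ^ M)⁻¹ • h) = 0 → h ∈ (T.R i).O ∧ (T.R i).red h = 0 := by
    intro i h h1 h2
    have e : h = (algebraMap K0 K ϖ ^ M) • ((algebraMap K0 K ϖ ^ M)⁻¹ • h) := by
      rw [smul_smul, mul_inv_cancel₀ hP0, one_smul]
    constructor
    · rw [e]
      exact (T.R i).smul_mem (hPA i) h1
    · rw [e, (T.R i).red_smul (hPA i) h1, h2, smul_zero]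
  obtain ⟨h₁, hh₁⟩ := hS (fun w' => if w' = w then 1 else 0)
    (fun w' => if w' = w then 1 else (algebraMap K0 K ϖ ^ M)⁻¹) (by
      intro i
      split_ifs
      · exact one_ne_zero
      · exact inv_ne_zero hP0)
  obtain ⟨h₂, hh₂⟩ := hS (fun w' => if w' = w then 0 else 1)
    (fun w' => if w' = w then (algebraMap K0 K ϖ ^ M)⁻¹ else 1) (by
      intro i
      split_ifs
      · exact inv_ne_zero hP0
      · exact one_ne_zero)
  have h1w : h₁ ∈ (T.R w).O ∧ (T.R w).red h₁ = 1 := by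
    have := hh₁ w
    simpa using this
  have h2w : (algebraMap K0 K ϖ ^ M)⁻¹ • h₂ ∈ (T.R w).O ∧
      (T.R w).red ((algebraMap K0 K ϖ ^ M)⁻¹ • h₂) = 0 := by
    have := hh₂ w
    simpa using this
  have h1o : ∀ i, i ≠ w → (algebraMap K0 K ϖ ^ M)⁻¹ • h₁ ∈ (T.R i).O ∧
      (T.R i).red ((algebraMap K0 K ϖ ^ M)⁻¹ • h₁) = 0 := by
    intro i hi
    have := hh₁ i
    simpa [hi] using this
  have h2o : ∀ i, i ≠ w → h₂ ∈ (T.R i).O ∧ (T.R i).red h₂ = 1 := by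
    intro i hi
    have := hh₂ i
    simpa [hi] using this
  have hsum : ∀ i, (T.R i).red (h₁ + h₂) = 1 := by
    intro i
    by_cases hi : i = w
    · subst hi
      obtain ⟨m2, r2⟩ := hdeep i h₂ h2w.1 h2w.2
      rw [(T.R i).red_add h1w.1 m2, h1w.2, r2, add_zero]
    · obtain ⟨m1, r1⟩ := hdeep i h₁ (h1o i hi).1 (h1o i hi).2
      rw [(T.R i).red_add m1 (h2o i hi).1, r1, (h2o i hi).2, zero_add]
  have hinv : ∀ i, (h₁ + h₂)⁻¹ ∈ (T.R i).O := fun i =>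
    (T.R i).inv_mem_of_red_ne_zero (by rw [hsum i]; exact one_ne_zero)
  have hne : h₁ + h₂ ≠ 0 := (T.R w).ne_zero_of_red_ne_zero (by rw [hsum w]; exact one_ne_zero)
  refine ⟨h₁ / (h₁ + h₂), ?_, fun i hi => ?_⟩
  · have e : (1 - h₁ / (h₁ + h₂)) / cE K E ϖ ^ M =
        ((algebraMap K0 K ϖ ^ M)⁻¹ • h₂) * (h₁ + h₂)⁻¹ := by
      rw [hcE, Algebra.smul_def, map_inv₀]
      field_simp
      ring
    rw [e]
    exact (T.R w).O.mul_mem _ _ h2w.1 (hinv w)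
  · have e : h₁ / (h₁ + h₂) / cE K E ϖ ^ M =
        ((algebraMap K0 K ϖ ^ M)⁻¹ • h₁) * (h₁ + h₂)⁻¹ := by
      rw [hcE, Algebra.smul_def, map_inv₀]
      field_simp
    rw [e]
    exact (T.R i).O.mul_mem _ _ (h1o i hi).1 (hinv i)

variable {Γ : Subgroup (SemilinearAut K E)}

theorem GalAct.smul_β (hΓ : GalAct T B Γ) {γ : SemilinearAut K E} (hγ : γ ∈ Γ) (z : E0) :
    γ • B.β z = B.β z := B.Γ_β γ (by rw [hΓ.Γ_eq]; exact hγ) z

theorem GalAct.smul_cE (hΓ : GalAct T B Γ) {γ : SemilinearAut K E} (hγ : γ ∈ Γ) (a : K0) :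
    γ • cE K E a = cE K E a := by
  rw [← β_cE B]
  exact hΓ.smul_β hγ _

/-- LEAF FD3a.  The product of a finite orbit is rational.  `S := (hΓ.orb y).toFinset`, `P := ∏ u ∈ S, u`.  For `γ ∈ Γ` : `γ • P = ∏ u ∈ S, γ • u` (`Finset.smul_prod'`, or `map_prod` for
`SemilinearAut.toRingAut γ`), and `u ↦ γ • u` is a bijection of `S` (`Finset.prod_bij'` with the inverse `γ⁻¹ • ·`; `γ • (γ' • y) = (γ * γ') • y`, `Γ.mul_mem`, `Γ.inv_mem`, `smul_smul`,
`inv_smul_smul`).  `hΓ.fix P`.  The statement also records that `S` is non empty (`y = 1 • y ∈ S`) and that its elements are of the form `γ • y`. -/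
theorem GalAct.exists_orbit_prod (hΓ : GalAct T B Γ) (y : E) :
    ∃ (S : Finset E) (z : E0), y ∈ S ∧ (∀ u ∈ S, ∃ γ ∈ Γ, u = γ • y) ∧ B.β z = ∏ u ∈ S, u := by
  classical
  set S : Finset E := (hΓ.orb y).toFinset with hS
  have hmem : ∀ u : E, u ∈ S ↔ ∃ γ ∈ Γ, u = γ • y := by
    intro u
    rw [hS, Set.Finite.mem_toFinset, Set.mem_range]
    constructor
    · rintro ⟨γ, rfl⟩
      exact ⟨γ, γ.2, rfl⟩
    · rintro ⟨γ, hγ, rfl⟩
      exact ⟨⟨γ, hγ⟩, rfl⟩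
  have hstab : ∀ γ ∈ Γ, ∀ u ∈ S, γ • u ∈ S := by
    intro γ hγ u hu
    obtain ⟨γ', hγ', rfl⟩ := (hmem u).1 hu
    exact (hmem _).2 ⟨γ * γ', Γ.mul_mem hγ hγ', by rw [mul_smul]⟩
  have hinv : ∀ γ ∈ Γ, γ • (∏ u ∈ S, u) = ∏ u ∈ S, u := by
    intro γ hγ
    rw [Finset.smul_prod']
    refine Finset.prod_bij' (fun u _ => γ • u) (fun u _ => γ⁻¹ • u) (fun u hu => hstab γ hγ u hu)
      (fun u hu => hstab γ⁻¹ (Γ.inv_mem hγ) u hu) (fun u _ => inv_smul_smul γ u)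
      (fun u _ => smul_inv_smul γ u) (fun u _ => rfl)
  obtain ⟨z, hz⟩ := hΓ.fix _ hinv
  exact ⟨S, z, (hmem y).2 ⟨1, Γ.one_mem, by rw [one_smul]⟩, fun u hu => (hmem u).1 hu, hz⟩

/-- LEAF FD3b.  `I := {t | t / c ∈ O}` (`c ∈ O`, `c ≠ 0`) is an ideal of `O`.  If `1 - u ∈ I` for all `u ∈ S` then `1 - ∏ u ∈ I`.  `Finset.induction_on`:
`1 - a * b = (1 - a) + a * (1 - b)`, `a = 1 - c * ((1 - a) / c) ∈ O`; `add_div`, `mul_div_assoc`. -/
theorem one_sub_prod_div_mem {O : ValuationSubring E} {c : E} (hc : c ∈ O) (hc0 : c ≠ 0)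
    (S : Finset E) (h : ∀ u ∈ S, (1 - u) / c ∈ O) : (1 - ∏ u ∈ S, u) / c ∈ O := by
  classical
  induction S using Finset.induction_on with
  | empty =>
    rw [Finset.prod_empty, sub_self, zero_div]
    exact O.zero_mem
  | insert a S ha ih =>
    rw [Finset.prod_insert ha]
    have h1 := h a (Finset.mem_insert_self a S)
    have h2 := ih fun u hu => h u (Finset.mem_insert_of_mem hu)
    have haO : a ∈ O := by
      have e : a = 1 - c * ((1 - a) / c) := by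
        field_simp
        ring
      rw [e]
      exact sub_mem O.one_mem (mul_mem hc h1)
    have e : (1 - a * ∏ u ∈ S, u) / c = (1 - a) / c + a * ((1 - ∏ u ∈ S, u) / c) := by
      field_simp
      ring
    rw [e]
    exact add_mem h1 (mul_mem haO h2)

/-- LEAF FD3c.  If `u / c ∈ O` for all `u ∈ S` (`c ∈ O`) and `S` is non empty then `(∏ u) / c ∈ O` : `Finset.mul_prod_erase S _ hy`, `mul_div_right_comm`;
the other factors `u = c * (u / c)` are in `O` (`Subring.prod_mem`/`prod_mem`). -/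
theorem prod_div_mem {O : ValuationSubring E} {c : E} (hc : c ∈ O) (hc0 : c ≠ 0)
    (S : Finset E) {y : E} (hy : y ∈ S) (h : ∀ u ∈ S, u / c ∈ O) : (∏ u ∈ S, u) / c ∈ O := by
  classical
  rw [← Finset.mul_prod_erase S (fun u => u) hy, mul_div_right_comm]
  refine mul_mem (h y hy) (prod_mem fun u hu => ?_)
  have e : u = c * (u / c) := by
    field_simp
  rw [e]
  exact mul_mem hc (h u (Finset.mem_of_mem_erase hu))

/-- **Rational deep idempotents.** -/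
theorem GalAct.exists_deep_idem (hΓ : GalAct T B Γ) (hB : Base T ϖ) (hS : T.Sep) (w : Ω)
    (M : ℕ) :
    ∃ ε : E0, (1 - B.β ε) / cE K E ϖ ^ M ∈ (T.R w).O ∧
      ∀ w', w' ≠ w → B.β ε / cE K E ϖ ^ M ∈ (T.R w').O := by
  obtain ⟨ε₁, h1, h2⟩ := exists_deep_idem_K hB hS w M
  obtain ⟨S, z, hyS, hS', hz⟩ := hΓ.exists_orbit_prod ε₁
  have hc : ∀ w', cE K E ϖ ^ M ∈ (T.R w').O := fun w' => (T.R w').O.pow_mem (hB.cE_mem w') M
  have hc0 : cE K E ϖ ^ M ≠ 0 := pow_ne_zero _ hB.cE_ne_zero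
  refine ⟨z, ?_, fun w' hw' => ?_⟩
  · rw [hz]
    refine one_sub_prod_div_mem (hc w) hc0 S fun u hu => ?_
    obtain ⟨γ, hγ, rfl⟩ := hS' u hu
    have := hΓ.val γ hγ w _ h1
    rwa [smul_div₀', smul_sub, smul_one, smul_pow', hΓ.smul_cE hγ] at this
  · rw [hz]
    refine prod_div_mem (hc w') hc0 S hyS fun u hu => ?_
    obtain ⟨γ, hγ, rfl⟩ := hS' u hu
    have := hΓ.val γ hγ w' _ (h2 w' hw')
    rwa [smul_div₀', smul_pow', hΓ.smul_cE hγ] at this

theorem FactD_red_one_sub_add {Fw : Type*} [Field Fw] [Algebra k Fw] (R : RedData K E k Fw)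
    {π a b : E} (hπ : π ∈ R.O) (hπ0 : R.red π = 0) (ha : a ∈ R.O) (hb : b ∈ R.O) :
    R.red (1 - π * a + π * b) = 1 := by
  have h1 : π * a ∈ R.O := mul_mem hπ ha
  have h2 : π * b ∈ R.O := mul_mem hπ hb
  rw [R.red_add (sub_mem (one_mem _) h1) h2, R.red_sub (one_mem _) h1, R.red_mul hπ ha,
    R.red_mul hπ hb, hπ0, zero_mul, zero_mul, R.red_one, sub_zero, add_zero]

/-- LEAF FD4.  **Isolation of a valuation.**  `hB.exists_pow_mul_mem hC (β z)` : `M₁`; the same for `(β z)⁻¹` : `M₂`; `M := M₁ + M₂` works for both (`pow_add`, `mul_assoc`, `hB.cE_mem`).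
`hΓ.exists_deep_idem hB hS w (M + 1)` : `ε`.  `y := z * ε + (1 - ε)`.  Write `π = cE ϖ` (`red_w π = 0` : `hB.red_cE`).
* at `w` : `t := (1 - β ε) / π ^ (M + 1) ∈ O_w`;  `β y / β z = 1 - π * (π ^ M * t) + π * (t * (π ^ M * (β z)⁻¹))` (`field_simp; ring`); `red_add`/`red_sub`/`red_mul`, `hB.red_cE`;
* at `w' ≠ w` : `t' := β ε / π ^ (M + 1) ∈ O_w'`;  `β y = 1 - π * (π ^ M * t') + π * (t' * (π ^ M * β z))`. -/
theorem GalAct.exists_isolating (hΓ : GalAct T B Γ) (hB : Base T ϖ) (hC : T.IsCartesian)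
    (hS : T.Sep) (w : Ω) {z : E0} (hz : z ≠ 0) :
    ∃ y : E0, (T.R w).red (B.β y / B.β z) = 1 ∧ ∀ w', w' ≠ w → (T.R w').red (B.β y) = 1 := by
  obtain ⟨M₁, hM₁⟩ := hB.exists_pow_mul_mem hC (B.β z)
  obtain ⟨M₂, hM₂⟩ := hB.exists_pow_mul_mem hC (B.β z)⁻¹
  have hπ0 : cE K E ϖ ≠ 0 := hB.cE_ne_zero
  have hβz : B.β z ≠ 0 := (map_ne_zero B.β).2 hz
  have hπO : ∀ w', cE K E ϖ ∈ (T.R w').O := hB.cE_mem
  have h1 : ∀ w', cE K E ϖ ^ (M₁ + M₂) * B.β z ∈ (T.R w').O := by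
    intro w'
    have h : cE K E ϖ ^ (M₁ + M₂) * B.β z = cE K E ϖ ^ M₂ * (cE K E ϖ ^ M₁ * B.β z) := by ring
    rw [h]
    exact mul_mem (pow_mem (hπO w') _) (hM₁ w')
  have h2 : ∀ w', cE K E ϖ ^ (M₁ + M₂) * (B.β z)⁻¹ ∈ (T.R w').O := by
    intro w'
    have h : cE K E ϖ ^ (M₁ + M₂) * (B.β z)⁻¹ =
        cE K E ϖ ^ M₁ * (cE K E ϖ ^ M₂ * (B.β z)⁻¹) := by ring
    rw [h]
    exact mul_mem (pow_mem (hπO w') _) (hM₂ w')
  obtain ⟨ε, hε1, hε2⟩ := hΓ.exists_deep_idem hB hS w (M₁ + M₂ + 1)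
  refine ⟨z * ε + (1 - ε), ?_, ?_⟩
  · have key : B.β (z * ε + (1 - ε)) / B.β z =
        1 - cE K E ϖ * (cE K E ϖ ^ (M₁ + M₂) * ((1 - B.β ε) / cE K E ϖ ^ (M₁ + M₂ + 1))) +
          cE K E ϖ * (((1 - B.β ε) / cE K E ϖ ^ (M₁ + M₂ + 1)) *
            (cE K E ϖ ^ (M₁ + M₂) * (B.β z)⁻¹)) := by
      rw [map_add, map_mul, map_sub, map_one]
      generalize cE K E ϖ = π at hπ0
      field_simp
      ring
    rw [key]
    exact FactD_red_one_sub_add (T.R w) (hπO w) (hB.red_cE w)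
      (mul_mem (pow_mem (hπO w) _) hε1) (mul_mem hε1 (h2 w))
  · intro w' hw'
    have key : B.β (z * ε + (1 - ε)) =
        1 - cE K E ϖ * (cE K E ϖ ^ (M₁ + M₂) * (B.β ε / cE K E ϖ ^ (M₁ + M₂ + 1))) +
          cE K E ϖ * ((B.β ε / cE K E ϖ ^ (M₁ + M₂ + 1)) *
            (cE K E ϖ ^ (M₁ + M₂) * B.β z)) := by
      rw [map_add, map_mul, map_sub, map_one]
      generalize cE K E ϖ = π at hπ0
      field_simp
      ring
    rw [key]
    exact FactD_red_one_sub_add (T.R w') (hπO w') (hB.red_cE w')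
      (mul_mem (pow_mem (hπO w') _) (hε2 w' hw')) (mul_mem (hε2 w' hw') (h1 w'))

/-- LEAF FD7.  `E = K · E0`.  `V := Submodule.span K (Set.range fun γ : Γ => (γ : SemilinearAut K E) • y)`, finite dimensional (`Module.Finite.span_of_finite K (hΓ.orb y)`), `Γ`-stable:
`Submodule.span_induction`; `g • (γ • y) = (g * γ) • y`; `g • (c • u) = SemilinearAut.baseAut g c • g • u` (`Algebra.smul_def`, `smul_mul'`, `SemilinearAut.smul_algebraMap`); `smul_add`, `smul_zero`.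
(`g ∈ B.Γ ↔ g ∈ Γ` by `hΓ.Γ_eq`.)  `le_span_of_stable B hind V _`, `Submodule.span_mono` (`fun _ h => h.2`), `y = 1 • y ∈ V`. -/
theorem GalAct.gen (hΓ : GalAct T B Γ)
    (hind : ∀ (n : ℕ) (z : Fin n → E0), LinearIndependent K0 z →
      LinearIndependent K (fun i => B.β (z i))) (y : E) :
    y ∈ Submodule.span K (Set.range B.β) := by
  set V : Submodule K E :=
    Submodule.span K (Set.range fun γ : Γ => (γ : SemilinearAut K E) • y) with hV
  have hfin : Module.Finite K V := Module.Finite.span_of_finite K (hΓ.orb y)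
  have hst : ∀ g ∈ B.Γ, ∀ u ∈ V, g • u ∈ V := by
    intro g hg u hu
    have hg' : g ∈ Γ := by
      have : g ∈ (Γ : Set (SemilinearAut K E)) := by rw [← hΓ.Γ_eq]; exact hg
      exact this
    induction hu using Submodule.span_induction with
    | mem x hx =>
      obtain ⟨γ, rfl⟩ := hx
      refine Submodule.subset_span ⟨⟨g * γ, Γ.mul_mem hg' γ.2⟩, ?_⟩
      show (g * (γ : SemilinearAut K E)) • y = g • (γ : SemilinearAut K E) • y
      rw [mul_smul]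
    | zero => rw [smul_zero]; exact Submodule.zero_mem _
    | add a b _ _ ha hb => rw [smul_add]; exact Submodule.add_mem _ ha hb
    | smul c x _ hx =>
      have e : g • (c • x) = SemilinearAut.baseAut g c • g • x := by
        rw [Algebra.smul_def, smul_mul', SemilinearAut.smul_algebraMap, ← Algebra.smul_def]
      rw [e]
      exact Submodule.smul_mem _ _ hx
  have hy : y ∈ V := by
    refine Submodule.subset_span ⟨1, ?_⟩
    show (1 : SemilinearAut K E) • y = y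
    rw [one_smul]
  exact Submodule.span_mono (fun _ h => h.2) (le_span_of_stable B hind V hst hy)

end General

section Cover

variable {K0 F0 E0 K F E k : Type*} [Field K0] [Field F0] [Field E0] [Algebra K0 E0] [Field K]
  [Field F] [Field E] [Algebra K F] [Algebra K E] [Algebra F E] [IsScalarTower K F E]
  [Algebra K0 K] [Field k] {ι : Type*} {Fb : ι → Type*} [∀ i, Field (Fb i)]
  [∀ i, Algebra k (Fb i)] [FiniteDimensional F E] [IsGalois F E]
  {T : MultiRed K F k Fb} {T' : MultiRed K E k (fun j : ι × (E ≃ₐ[F] E) => Fb j.1)}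
  {B : BC K0 E0 K E} {ϖ : K0} {Γ : Subgroup (SemilinearAut K E)} {βF : F0 →+* F}

/-- LEAF FD6.  The norm of a rational function is rational.  `Algebra.norm_eq_prod_automorphisms F (B.β z) : algebraMap F E (Algebra.norm F (β z)) = ∏ σ, σ (β z)`.
For `γ ∈ Γ` : `γ • ∏ σ, σ (β z) = ∏ σ, γ • σ (β z)` (`Finset.smul_prod'`) `= ∏ σ, σ (γ • β z)` (`hcomm`) `= ∏ σ, σ (β z)` (`hΓ.smul_β`).  `hfixF (Algebra.norm F (β z))`. -/
theorem GalAct.exists_norm (hΓ : GalAct T' B Γ)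
    (hcomm : ∀ γ ∈ Γ, ∀ (g : E ≃ₐ[F] E) (y : E), γ • g y = g (γ • y))
    (hfixF : ∀ y : F, (∀ γ ∈ Γ, γ • algebraMap F E y = algebraMap F E y) → y ∈ Set.range βF)
    (z : E0) : ∃ y : F0, algebraMap F E (βF y) = ∏ g : E ≃ₐ[F] E, g (B.β z) := by
  have hn := Algebra.norm_eq_prod_automorphisms F (B.β z)
  obtain ⟨y, hy⟩ := hfixF (Algebra.norm F (B.β z)) (by
    intro γ hγ
    rw [hn, Finset.smul_prod']
    refine Finset.prod_congr rfl fun σ _ => ?_
    rw [hcomm γ hγ, hΓ.smul_β hγ])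
  exact ⟨y, by rw [hy, hn]⟩

/-- LEAF FD5.  **FACT D on the cover** (the norm argument).  Let `w = (i, g₀)`, `z ≠ 0`.  `hiso w z hz` : `y`; `β y ≠ 0` (otherwise `β y / β z = 0` has reduction `0 ≠ 1`: `red_zero`).
`hnorm y` : `n₀ : F0`, `n₀ ≠ 0` (`Finset.prod_ne_zero_iff`).  `hDF i n₀ _` : `n` with `red_i (βF n₀ / cE K F ϖ ^ n) ≠ 0`.  By `h.red_algebraMap i g₀`, `map_div₀`, `map_zpow₀`,
`(IsScalarTower.algebraMap_apply K F E _).symm` : `red_w ((∏ g, g (β y)) / π ^ n) ≠ 0`, `π = cE K E ϖ`.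
`∏ g, g (β y) = β y * U`, `U := ∏ g ∈ univ.erase 1, g (β y)` (`Finset.mul_prod_erase`, `AlgEquiv.one_apply`).  For `g ≠ 1` :
`red_w (g (β y)) = red_{(i, g⁻¹ * g₀)} (β y) = 1` (`h.red_map i (g⁻¹ * g₀) g (β y)`, `mul_inv_cancel_left`; `(i, g⁻¹ * g₀) ≠ (i, g₀)`), so `red_w U = 1` (`red_prod`, `mem_of_red_ne_zero`,
`Finset.prod_eq_one`).  Units (`red ≠ 0`) are stable under products and inverses (`red_mul_ne_zero`, `red_inv`, `inv_ne_zero`):
`β z / π ^ n = ((β y * U) / π ^ n) * U⁻¹ * (β y / β z)⁻¹` (`field_simp`). -/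
theorem factD_cover (h : SplitCover T T') (hDF : FactD T βF ϖ)
    (hnorm : ∀ z : E0, ∃ y : F0, algebraMap F E (βF y) = ∏ g : E ≃ₐ[F] E, g (B.β z))
    (hiso : ∀ (w : ι × (E ≃ₐ[F] E)) (z : E0), z ≠ 0 →
      ∃ y : E0, (T'.R w).red (B.β y / B.β z) = 1 ∧ ∀ w', w' ≠ w → (T'.R w').red (B.β y) = 1) :
    FactD T' B.β ϖ := by
  classical
  rintro ⟨i, g₀⟩ z hz
  obtain ⟨y, hy1, hy2⟩ := hiso (i, g₀) z hz
  have hβz : B.β z ≠ 0 := B.β_ne_zero hz
  have hβy : B.β y ≠ 0 := by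
    intro h0
    rw [h0, zero_div, RedData.red_zero] at hy1
    exact zero_ne_one hy1
  obtain ⟨n₀, hn₀⟩ := hnorm y
  have hprod0 : ∏ g : E ≃ₐ[F] E, g (B.β y) ≠ 0 := by
    rw [Finset.prod_ne_zero_iff]
    intro g _
    exact (map_ne_zero g).2 hβy
  have hn₀0 : n₀ ≠ 0 := by
    rintro rfl
    rw [map_zero, map_zero] at hn₀
    exact hprod0 hn₀.symm
  obtain ⟨n, hn⟩ := hDF i n₀ hn₀0
  refine ⟨n, ?_⟩
  have h1 : (T'.R (i, g₀)).red ((∏ g : E ≃ₐ[F] E, g (B.β y)) / cE K E ϖ ^ n) ≠ 0 := by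
    have e := h.red_algebraMap i g₀ (βF n₀ / cE K F ϖ ^ n)
    rw [map_div₀, map_zpow₀, hn₀, ← IsScalarTower.algebraMap_apply K F E] at e
    rw [e]
    exact hn
  set U : E := ∏ g ∈ (Finset.univ : Finset (E ≃ₐ[F] E)).erase 1, g (B.β y) with hU
  have hsplit : ∏ g : E ≃ₐ[F] E, g (B.β y) = B.β y * U := by
    rw [hU, ← Finset.mul_prod_erase Finset.univ (fun g : E ≃ₐ[F] E => g (B.β y))
      (Finset.mem_univ 1), AlgEquiv.one_apply]
  have hone : ∀ g : E ≃ₐ[F] E, g ≠ 1 → (T'.R (i, g₀)).red (g (B.β y)) = 1 := by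
    intro g hg
    have e := h.red_map i (g⁻¹ * g₀) g (B.β y)
    rw [mul_inv_cancel_left] at e
    rw [e]
    apply hy2
    intro heq
    have h2 : g⁻¹ * g₀ = g₀ := (Prod.mk.inj heq).2
    apply hg
    have h3 : g⁻¹ = 1 := mul_eq_right.mp h2
    exact inv_eq_one.mp h3
  have hU1 : (T'.R (i, g₀)).red U = 1 := by
    rw [hU, RedData.red_prod]
    · refine Finset.prod_eq_one fun g hg => hone g (Finset.ne_of_mem_erase hg)
    · intro g hg
      apply RedData.mem_of_red_ne_zero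
      rw [hone g (Finset.ne_of_mem_erase hg)]
      exact one_ne_zero
  have hU0 : U ≠ 0 := by
    apply (T'.R (i, g₀)).ne_zero_of_red_ne_zero
    rw [hU1]
    exact one_ne_zero
  have hfin : B.β z / cE K E ϖ ^ n =
      ((B.β y * U) / cE K E ϖ ^ n) * U⁻¹ * (B.β y / B.β z)⁻¹ := by
    generalize cE K E ϖ ^ n = P
    field_simp
  rw [hfin]
  refine RedData.red_mul_ne_zero _ (RedData.red_mul_ne_zero _ ?_ ?_) ?_
  · rw [← hsplit]
    exact h1
  · rw [RedData.red_inv, hU1]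
    simp
  · rw [RedData.red_inv, hy1]
    simp

/-- **The rational structure of the cover.** -/
theorem rat_cover (h : SplitCover T T') (hC : T'.IsCartesian) (hS : T'.Sep) (hB : Base T' ϖ)
    (hind : ∀ (n : ℕ) (z : Fin n → E0), LinearIndependent K0 z →
      LinearIndependent K (fun i => B.β (z i)))
    (hΓ : GalAct T' B Γ) (hDF : FactD T βF ϖ)
    (hcomm : ∀ γ ∈ Γ, ∀ (g : E ≃ₐ[F] E) (y : E), γ • g y = g (γ • y))
    (hfixF : ∀ y : F, (∀ γ ∈ Γ, γ • algebraMap F E y = algebraMap F E y) → y ∈ Set.range βF) :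
    Rat T' B ϖ :=
  { hB with
    indep := hind
    gen := hΓ.gen hind
    factD := factD_cover h hDF (hΓ.exists_norm hcomm hfixF)
      (fun w _ hz => hΓ.exists_isolating hB hC hS w hz) }

end Cover

end Fermat.Agent.MR.PLC.Abs
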