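import Fermat.Agent.MR.PLC.Abs.Van

/-!
# MR / PLC / Abs : instantiation of the contract of block PLA (`Disc`, `Poles`, `Kum`)
-/

set_option autoImplicit false
set_option linter.unusedSectionVars false

noncomputable section

namespace Fermat.Agent.MR.PLC.Abs

open AlgebraicCurve Fermat.Agent.Lib.RR Fermat.Agent.GAL.RED Fermat.Agent.DR.Abs Fermat.Agent.S36.RC
  Fermat.Agent.S36.Abs Fermat.Agent.MR.PLA

variable {K0 E0 K E k : Type*} [Field K0] [Field E0] [Algebra K0 E0] [Field K] [Field E]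
  [Algebra K E] [Algebra K0 K] [Field k] {Ω : Type*} {Fb : Ω → Type*} [∀ w, Field (Fb w)]
  [∀ w, Algebra k (Fb w)] {Nd : Type*} {T : MultiRed K E k Fb} {B : BC K0 E0 K E} {ϖ : K0}

theorem β_cE (B : BC K0 E0 K E) (a : K0) : B.β (algebraMap K0 E0 a) = cE K E a := B.β_alg a

theorem β_div_pow (B : BC K0 E0 K E) (z : E0) (a : K0) (n : ℕ) :
    B.β (z / algebraMap K0 E0 a ^ n) = B.β z / cE K E a ^ n := by
  rw [map_div₀, map_pow, β_cE]

theorem β_div_zpow (B : BC K0 E0 K E) (z : E0) (a : K0) (n : ℤ) :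
    B.β (z / algebraMap K0 E0 a ^ n) = B.β z / cE K E a ^ n := by
  rw [map_div₀, map_zpow₀, β_cE]

section

variable (hA : ∀ c : k, ∃ a : K0, algebraMap K0 K a ∈ T.A ∧ T.redA (algebraMap K0 K a) = c)
  (hO : ∀ (w : Ω) (u : Fb w), ∃ z : E0, B.β z ∈ (T.R w).O ∧ (T.R w).red (B.β z) = u)

/-- **`Disc`.** -/
theorem Rat.disc (hR : Rat T B ϖ) : Disc (restrict T B.β B.β_alg hA hO) ϖ where
  ne := hR.ne
  mem := hR.mem
  redA := hR.redA
  noeth := hR.noeth
  ker := fun w z hz h0 => by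
    rw [restrict_red] at h0
    rw [mem_restrict_RO, map_div₀, β_cE]
    exact hR.factD.div_mem hR.toBase w hz h0
  scale := fun w z => by
    obtain ⟨n, hn⟩ := hR.factD.scale hR.toBase w z
    refine ⟨n, ?_⟩
    rw [mem_restrict_RO, map_mul, map_pow, β_cE]
    exact hn

variable [Fintype Ω] [Fintype Nd] [IsFF K E] [IsAlgClosed K] [∀ w, IsFF k (Fb w)] [IsAlgClosed k]

/-- **`Poles`.** -/
def poles (hS : T.Sep) {N : NodeData k Fb Nd} {ξ0 : E0} (hξ : IsCoord T (B.β ξ0) N)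
    (hV : Van T (algebraMap K0 K ϖ) (B.β ξ0) N)
    (hg : (genusFF K E : ℤ) - 1 ≤ ∑ w, ((genusFF k (Fb w) : ℤ) - 1) + Fintype.card Nd) :
    Poles (restrict T B.β B.β_alg hA hO) ϖ N where
  L := fun a => B.pl (riemannRochSpace (a • poleDiv (K := K) (B.β ξ0)))
  X := fun w => poleDiv (K := k) ((T.R w).red (B.β ξ0))
  X_node₁ := fun e => by
    rw [poleDiv_apply]
    have := hξ.node₁ e
    omega
  X_node₂ := fun e => by
    rw [poleDiv_apply]
    have := hξ.node₂ e
    omega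
  deg_pos := fun w => degree_poleDiv_pos (hξ.nonconst w)
  int := fun a z hzL hzO w => by
    rw [restrict_red, natCast_zsmul]
    exact T.red_mem_L_of_mem_L hS _ hξ.nonconst hξ.deg a _ hzL hzO w
  van₁ := fun a α z e hzL hzO hα => by
    rw [restrict_red]
    rw [mem_restrict_RO, β_div_pow] at hα
    exact (hV α (B.β z) e ⟨hzO, a, hzL⟩).1 hα
  van₂ := fun a α z e hzL hzO hα => by
    rw [restrict_red]
    rw [mem_restrict_RO, β_div_pow] at hα
    exact (hV α (B.β z) e ⟨hzO, a, hzL⟩).2 hα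
  g := genusFF K E
  genus_le := hg

/-- **`Kum`.** -/
theorem exists_kum [Nonempty Ω] (hR : Rat T B ϖ) (hC : T.IsCartesian) (hS : T.Sep)
    {N : NodeData k Fb Nd} {ξ0 : E0}
    (hξ : IsCoord T (B.β ξ0) N) (hV : Van T (algebraMap K0 K ϖ) (B.β ξ0) N)
    (hg : (genusFF K E : ℤ) - 1 ≤ ∑ w, ((genusFF k (Fb w) : ℤ) - 1) + Fintype.card Nd)
    {p : ℕ} (hp : 0 < p) {f : E0} (hf : f ≠ 0)
    (hdiv : ∀ P : Place K E, (p : ℤ) ∣ P.ord (B.β f)) :
    ∃ κ : Kum (poles hA hO hS hξ hV hg) p, κ.f = f := by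
  obtain ⟨D, hD, hD0⟩ := exists_divisor_of_dvd hp (B.β f) hdiv
  have hinv : ∀ a : ℕ, B.Inv (a • poleDiv (K := K) (B.β ξ0) + D) := fun a =>
    ((B.inv_poleDiv ξ0).nsmul B a).add B (B.inv_of_nsmul hp hD)
  choose i hi using fun w => hR.factD w f hf
  refine ⟨{ f := f
            i := i
            red_f := fun w => ?_
            Mf := fun a => B.pl (riemannRochSpace (a • poleDiv (K := K) (B.β ξ0) + D))
            mem_Mf := fun a y => ?_
            a0 := 0
            finrank_Mf := fun a _ => ?_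
            bdd := fun a => ?_ }, rfl⟩
  · rw [restrict_red, β_div_zpow]
    exact hi w
  · show B.β y ∈ riemannRochSpace (a • poleDiv (K := K) (B.β ξ0) + D) ↔
      B.β (y ^ p * f) ∈ riemannRochSpace ((p * a) • poleDiv (K := K) (B.β ξ0))
    rw [map_mul, map_pow, mul_smul]
    exact mem_L_add_iff_pow_mul_mem hp (B.β_ne_zero hf) hD _ _
  · have h1 := B.riemann (hinv a)
    rw [map_add, hD0, add_zero, map_nsmul, hξ.deg, nsmul_eq_mul] at h1
    exact h1
  · have := B.fin (riemannRochSpace (a • poleDiv (K := K) (B.β ξ0) + D)) inferInstance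
    exact hR.exists_bdd hC hA hO _

end

end Fermat.Agent.MR.PLC.Abs
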