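import Fermat.Agent.MR.PLC.Abs.Restrict
import Fermat.Agent.S36R.K0.LatticeAbs

/-!
# MR / PLC / Abs : the lattice lemma (rational lifts of reductions), residue lifts, boundedness of the unit ball
-/

set_option autoImplicit false
set_option linter.unusedSectionVars false

noncomputable section

namespace Fermat.Agent.MR.PLC.Abs

open AlgebraicCurve Fermat.Agent.Lib.RR Fermat.Agent.GAL.RED Fermat.Agent.DR.Abs Fermat.Agent.S36.RC
  Fermat.Agent.S36.Abs

section General

variable {K F k : Type*} [Field K] [Field F] [Algebra K F] [Field k] {ι : Type*}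
  {Fb : ι → Type*} [∀ i, Field (Fb i)] [∀ i, Algebra k (Fb i)]

/-- Orthonormality (port of `S36R.LatticeAbs_coeff_mem`). -/
theorem Lattice_coeff_mem [Nonempty ι] (T : MultiRed K F k Fb) {m : ℕ} {x : Fin m → F}
    (hx : ∀ i, x i ∈ T.O) (hli : LinearIndependent k (fun i => T.red (x i)))
    (e : Fin m → K) (he : ∑ i, e i • x i ∈ T.O) (i : Fin m) : e i ∈ T.A := by
  by_cases h0 : e = 0
  · rw [h0]; exact T.A.zero_mem
  obtain ⟨a, ha0, ha, j, hj⟩ := T.Basic_exists_scale_family e h0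
  have h1 : T.red (∑ i, (a * e i) • x i) = ∑ i, T.redA (a * e i) • T.red (x i) := by
    rw [T.red_sum _ _ (fun i _ => T.smul_mem (ha i) (hx i))]
    exact Finset.sum_congr rfl fun i _ => T.red_smul (ha i) (hx i)
  have h2 : T.red (∑ i, (a * e i) • x i) ≠ 0 := by
    rw [h1]
    intro h
    exact hj (Fintype.linearIndependent_iff.1 hli _ h j)
  have h3 : ∑ i, (a * e i) • x i = a • ∑ i, e i • x i := by
    rw [Finset.smul_sum]
    exact Finset.sum_congr rfl fun i _ => mul_smul _ _ _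
  rw [h3] at h2
  rcases T.A.mem_or_inv_mem a with h | h
  · by_cases h4 : T.redA a = 0
    · exact absurd (by rw [T.red_smul h he, h4, zero_smul]) h2
    · have h5 := (T.redA_ne_zero_iff.1 h4).2.2
      have : e i = a⁻¹ * (a * e i) := by field_simp
      rw [this]
      exact T.A.mul_mem _ _ h5 (ha i)
  · have : e i = a⁻¹ * (a * e i) := by field_simp
    rw [this]
    exact T.A.mul_mem _ _ h (ha i)

theorem Lattice_redA_eq_zero [Nonempty ι] (T : MultiRed K F k Fb) {a : K}
    (h : T.A.valuation a < 1) : T.redA a = 0 := by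
  by_contra h0
  obtain ⟨-, -, h3⟩ := T.redA_ne_zero_iff.1 h0
  have h4 := (T.A.valuation_le_one_iff _).2 h3
  rw [map_inv₀] at h4
  have ha0 : T.A.valuation a ≠ 0 := by
    intro h5
    rw [h5, inv_zero] at h4
    have : a = 0 := (Valuation.zero_iff _).1 h5
    exact (T.redA_ne_zero_iff.1 h0).1 this
  have h5 : 1 ≤ T.A.valuation a := by
    rwa [inv_le_one₀ (zero_lt_iff.2 ha0)] at h4
  exact absurd h (not_lt.2 h5)

/-- LEAF LT1.  **The lattice lemma for a family of reductions.**  This is a LINE BY LINE PORT of `S36R.exists_fixed_lift` (`Fermat/Agent/S36R/K0/LatticeAbs.lean`, 200 lines,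
closed) from `R : RedData` to `T : MultiRed`: replace `R.O` by `T.O`, `R.red` by `T.red` (values in `∀ i, Fb i`), `R.A` by `T.A`, `R.redA` by `T.redA`, `R.redSub` by `T.redSub`.
Dictionary (`DR/Abs/Basic.lean`): `R.exists_scale_family` ↦ `T.Basic_exists_scale_family`; `R.red_sum/red_smul/smul_mem/red_sub/red_add/red_zero` ↦ `T.red_sum` ...;
`R.exists_liftA c` ↦ `T.redA_surj c`; `R.finite_redSub` ↦ `T.finite_redSub`; `R.linearIndependent_of_red` ↦ `T.linearIndependent_of_red`;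
`R.redA_ne_zero_iff` ↦ `T.redA_ne_zero_iff`; `(R.redA_eq_zero_iff h).2` : go through a component `i₀` (`T.redA_eq i₀`, `T.A_eq i₀`).
First port `LatticeAbs_coeff_mem` (30 lines; or use `IsCartesian.exists_coeff`).
THE ONLY DIFFERENCE: `T.red y ≠ 0` does not imply `y ∈ T.O`, so the membership is carried along: in `hD` (see the statement), and in the predicate
`E e := ∃ c, (∀ i, c i ∈ K0) ∧ π ^ (-e) • (y + ∑ i, c i • x i) ∈ T.O ∧ T.red (π ^ (-e) • (y + ∑ i, c i • x i)) ≠ 0`. -/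
theorem exists_fixed_lift_multi [Nonempty ι] (T : MultiRed K F k Fb) (hC : T.IsCartesian)
    (K0 : Subfield K) (S : AddSubgroup F) (hS : ∀ c ∈ K0, ∀ x ∈ S, c • x ∈ S)
    (π : K) (hπK : π ∈ K0) (hπ0 : π ≠ 0) (hπ1 : T.A.valuation π < 1)
    (hD : ∀ x ∈ S, x ≠ 0 → ∃ n : ℤ, π ^ n • x ∈ T.O ∧ T.red (π ^ n • x) ≠ 0)
    (hRes : ∀ a ∈ T.A, ∃ a0 ∈ K0, a0 ∈ T.A ∧ T.redA a0 = T.redA a)
    (hArch : ∀ b : K, ∃ s : ℕ, T.A.valuation (b * π ^ s) < 1)
    (V : Submodule K F) [Module.Finite K V]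
    (hV : V ≤ Submodule.span K {x | x ∈ V ∧ x ∈ S})
    {u : F} (huV : u ∈ V) (huO : u ∈ T.O) :
    ∃ u0 ∈ V, u0 ∈ S ∧ u0 ∈ T.O ∧ T.red u0 = T.red u := by
  classical
  set TT : Submodule k (∀ i, Fb i) :=
    Submodule.span k {h | ∃ x ∈ V, x ∈ S ∧ x ∈ T.O ∧ T.red x = h} with hTdef
  have hT : ∀ h ∈ TT, ∃ x ∈ V, x ∈ S ∧ x ∈ T.O ∧ T.red x = h := by
    intro h hh
    induction hh using Submodule.span_induction with
    | mem y hy => exact hy
    | zero => exact ⟨0, V.zero_mem, S.zero_mem, T.O.zero_mem, T.red_zero⟩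
    | add y z _ _ hy hz =>
      obtain ⟨x1, h1, h2, h3, rfl⟩ := hy
      obtain ⟨x2, h1', h2', h3', rfl⟩ := hz
      exact ⟨x1 + x2, V.add_mem h1 h1', S.add_mem h2 h2', T.O.add_mem h3 h3',
        T.red_add h3 h3'⟩
    | smul c y _ hy =>
      obtain ⟨x1, h1, h2, h3, rfl⟩ := hy
      obtain ⟨a, ha, rfl⟩ := T.redA_surj c
      obtain ⟨a0, ha0, ha0A, ha0r⟩ := hRes a ha
      exact ⟨a0 • x1, V.smul_mem _ h1, hS _ ha0 _ h2, T.smul_mem ha0A h3, by
        rw [T.red_smul ha0A h3, ha0r]⟩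
  have hTle : TT ≤ T.redSub V := by
    intro h hh
    obtain ⟨x, h1, -, h3, h4⟩ := hT h hh
    exact ⟨x, h1, h3, h4⟩
  by_contra hcon
  have huT : T.red u ∉ TT := fun h => hcon (hT _ h)
  have := T.finite_redSub V
  have hfinT : Module.Finite k TT := Module.Finite.of_injective (Submodule.inclusion hTle)
    (Submodule.inclusion_injective hTle)
  have hlt : Module.finrank k TT < Module.finrank K V := by
    rw [← hC V inferInstance]
    apply Submodule.finrank_lt_finrank_of_lt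
    exact lt_of_le_of_ne hTle fun h => huT (h ▸ ⟨u, huV, huO, rfl⟩)
  set m := Module.finrank k TT with hm
  let bT : Module.Basis (Fin m) k TT := Module.finBasis k TT
  choose x hxV hxS hxO hxr using fun i => hT (bT i) (bT i).2
  have hli : LinearIndependent k (fun i => T.red (x i)) := by
    have h1 := bT.linearIndependent.map' TT.subtype (Submodule.ker_subtype TT)
    have h2 : (fun i => T.red (x i)) = TT.subtype ∘ bT := by
      funext i
      exact hxr i
    rw [h2]
    exact h1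
  have hspanT : ∀ h ∈ TT, ∃ γ : Fin m → k, h = ∑ i, γ i • T.red (x i) := by
    intro h hh
    refine ⟨fun i => bT.repr ⟨h, hh⟩ i, ?_⟩
    have h1 := bT.sum_repr ⟨h, hh⟩
    have h2 := congrArg (TT.subtype) h1
    rw [map_sum] at h2
    simp only [map_smul, Submodule.subtype_apply] at h2
    refine h2.symm.trans ?_
    exact Finset.sum_congr rfl fun i _ => by rw [hxr i]
  have hmemT : ∀ γ : Fin m → k, ∑ i, γ i • T.red (x i) ∈ TT := fun γ =>
    TT.sum_mem fun i _ => TT.smul_mem _ (by rw [hxr i]; exact (bT i).2)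
  have hliK : LinearIndependent K x := T.linearIndependent_of_red hxO hli
  -- a new vector
  obtain ⟨y, hyV, hyS, hy⟩ : ∃ y ∈ V, y ∈ S ∧ y ∉ Submodule.span K (Set.range x) := by
    by_contra hno
    push Not at hno
    have h1 : V ≤ Submodule.span K (Set.range x) :=
      hV.trans (Submodule.span_le.2 fun z hz => hno z hz.1 hz.2)
    have := Module.Finite.span_of_finite K (Set.finite_range x)
    have h2 := Submodule.finrank_mono h1
    rw [finrank_span_eq_card hliK, Fintype.card_fin] at h2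
    omega
  -- the bound
  have hli' : LinearIndependent K (Fin.cons y x : Fin (m + 1) → F) :=
    linearIndependent_finCons.2 ⟨hliK, hy⟩
  obtain ⟨z, hzU, hzO, hzT⟩ : ∃ z ∈ Submodule.span K (Set.range (Fin.cons y x : Fin (m + 1) → F)),
      z ∈ T.O ∧ T.red z ∉ TT := by
    by_contra hno
    push Not at hno
    have h1 : T.redSub (Submodule.span K (Set.range (Fin.cons y x : Fin (m + 1) → F))) ≤ TT := by
      rintro _ ⟨z, h1, h2, rfl⟩
      exact hno z h1 h2
    have h2 := Submodule.finrank_mono h1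
    rw [hC _ (Module.Finite.span_of_finite K (Set.finite_range _)),
      finrank_span_eq_card hli', Fintype.card_fin] at h2
    omega
  obtain ⟨d, rfl⟩ := (Submodule.mem_span_range_iff_exists_fun K).1 hzU
  rw [Fin.sum_univ_succ] at hzO hzT
  simp only [Fin.cons_zero, Fin.cons_succ] at hzO hzT
  set b := d 0 with hb
  set a : Fin m → K := fun i => d i.succ with ha
  have hkey : ∀ c : Fin m → K, b • (y + ∑ i, c i • x i) ∈ T.O →
      T.red (b • (y + ∑ i, c i • x i)) ≠ 0 := by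
    intro c h1 h2
    have h3 : ∑ i, (a i - b * c i) • x i = (b • y + ∑ i, a i • x i) - b • (y + ∑ i, c i • x i) := by
      simp only [sub_smul, Finset.sum_sub_distrib, mul_smul, smul_add, ← Finset.smul_sum]
      abel
    have h4 : ∑ i, (a i - b * c i) • x i ∈ T.O := by
      rw [h3]; exact T.O.sub_mem hzO h1
    have h5 := Lattice_coeff_mem T hxO hli _ h4
    apply hzT
    have h6 : T.red (b • y + ∑ i, a i • x i) = T.red (∑ i, (a i - b * c i) • x i) := by
      rw [h3, T.red_sub hzO h1, h2, sub_zero]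
    rw [h6, T.red_sum _ _ (fun i _ => T.smul_mem (h5 i) (hxO i))]
    have : ∑ i, T.red ((a i - b * c i) • x i) = ∑ i, T.redA (a i - b * c i) • T.red (x i) :=
      Finset.sum_congr rfl fun i _ => T.red_smul (h5 i) (hxO i)
    rw [this]
    exact hmemT _
  obtain ⟨s, hs⟩ := hArch b
  have hne : ∀ c : Fin m → K, y + ∑ i, c i • x i ≠ 0 := by
    intro c h
    apply hy
    rw [add_eq_zero_iff_eq_neg] at h
    rw [h]
    exact Submodule.neg_mem _ (Submodule.sum_mem _ fun i _ =>
      Submodule.smul_mem _ _ (Submodule.subset_span ⟨i, rfl⟩))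
  let E : ℤ → Prop := fun e => ∃ c : Fin m → K, (∀ i, c i ∈ K0) ∧
    π ^ (-e) • (y + ∑ i, c i • x i) ∈ T.O ∧ T.red (π ^ (-e) • (y + ∑ i, c i • x i)) ≠ 0
  have hbdd : ∀ e, E e → e ≤ s := by
    rintro e ⟨c, -, hcO, hc⟩
    by_contra hlt
    push Not at hlt
    have h1 : T.A.valuation (b * π ^ e) < 1 := by
      have h2 : b * π ^ e = (b * π ^ s) * π ^ (e - s) := by
        rw [mul_assoc, ← zpow_natCast, ← zpow_add₀ hπ0]
        congr 2
        ring
      rw [h2, map_mul]
      have h3 : T.A.valuation (π ^ (e - s)) ≤ 1 := by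
        obtain ⟨t, ht⟩ := Int.eq_ofNat_of_zero_le (by omega : 0 ≤ e - s)
        rw [ht, zpow_natCast, map_pow]
        exact pow_le_one₀ zero_le hπ1.le
      calc T.A.valuation (b * π ^ s) * T.A.valuation (π ^ (e - s))
          ≤ T.A.valuation (b * π ^ s) * 1 := by gcongr
        _ < 1 := by rwa [mul_one]
    have h2 : b * π ^ e ∈ T.A := (T.A.valuation_le_one_iff _).1 h1.le
    have h3 : b • (y + ∑ i, c i • x i) = (b * π ^ e) • (π ^ (-e) • (y + ∑ i, c i • x i)) := by
      rw [smul_smul, mul_assoc, ← zpow_add₀ hπ0, add_neg_cancel, zpow_zero, mul_one]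
    refine hkey c (h3 ▸ T.smul_mem h2 hcO) ?_
    rw [h3, T.red_smul h2 hcO, Lattice_redA_eq_zero T h1, zero_smul]
  have hex : ∃ e, E e := by
    obtain ⟨n, hnO, hn⟩ := hD y hyS (by simpa using hne 0)
    exact ⟨-n, 0, fun _ => K0.zero_mem, by simpa using hnO, by simpa using hn⟩
  obtain ⟨e, ⟨c, hcK, hcO, hc⟩, hmax⟩ := Int.exists_greatest_of_bdd ⟨s, hbdd⟩ hex
  -- improve
  set ys := π ^ (-e) • (y + ∑ i, c i • x i) with hys
  have hπz : ∀ n : ℤ, π ^ n ∈ K0 := fun n => zpow_mem hπK n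
  have hy'S : ∀ c : Fin m → K, (∀ i, c i ∈ K0) → y + ∑ i, c i • x i ∈ S := fun c hc =>
    S.add_mem hyS (S.sum_mem fun i _ => hS _ (hc i) _ (hxS i))
  have hy'V : ∀ c : Fin m → K, y + ∑ i, c i • x i ∈ V := fun c =>
    V.add_mem hyV (V.sum_mem fun i _ => V.smul_mem _ (hxV i))
  have hysO : ys ∈ T.O := hcO
  have hysT : T.red ys ∈ TT := Submodule.subset_span
    ⟨ys, V.smul_mem _ (hy'V c), hS _ (hπz _) _ (hy'S c hcK), hysO, rfl⟩
  obtain ⟨γ, hγ⟩ := hspanT _ hysT
  have hlift : ∀ i, ∃ a0 ∈ K0, a0 ∈ T.A ∧ T.redA a0 = γ i := by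
    intro i
    obtain ⟨a, ha, har⟩ := T.redA_surj (γ i)
    obtain ⟨a0, h1, h2, h3⟩ := hRes a ha
    exact ⟨a0, h1, h2, h3.trans har⟩
  choose g hgK hgA hgr using hlift
  set c' : Fin m → K := fun i => c i - π ^ e * g i with hc'
  have hc'K : ∀ i, c' i ∈ K0 := fun i => K0.sub_mem (hcK i) (K0.mul_mem (hπz _) (hgK i))
  have hw : π ^ (-e) • (y + ∑ i, c' i • x i) = ys - ∑ i, g i • x i := by
    rw [hys, hc']
    simp only [sub_smul, Finset.sum_sub_distrib, mul_smul, ← Finset.smul_sum, smul_add, smul_sub]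
    rw [smul_smul (π ^ (-e)) (π ^ e), ← zpow_add₀ hπ0, neg_add_cancel, zpow_zero, one_smul]
    abel
  have hsumO : ∑ i, g i • x i ∈ T.O := T.O.sum_mem fun i _ => T.smul_mem (hgA i) (hxO i)
  have hwO : π ^ (-e) • (y + ∑ i, c' i • x i) ∈ T.O := by
    rw [hw]; exact T.O.sub_mem hysO hsumO
  have hw0 : T.red (π ^ (-e) • (y + ∑ i, c' i • x i)) = 0 := by
    rw [hw, T.red_sub hysO hsumO, hγ, T.red_sum _ _ (fun i _ => T.smul_mem (hgA i) (hxO i)),
      sub_eq_zero]
    exact Finset.sum_congr rfl fun i _ => by rw [T.red_smul (hgA i) (hxO i), hgr i]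
  obtain ⟨n, hnO, hn⟩ := hD _ (hy'S c' hc'K) (hne c')
  have hn1 : e + 1 ≤ -n := by
    by_contra hlt
    push Not at hlt
    obtain ⟨t, ht⟩ := Int.eq_ofNat_of_zero_le (by omega : 0 ≤ n + e)
    have h1 : π ^ n • (y + ∑ i, c' i • x i)
        = π ^ t • (π ^ (-e) • (y + ∑ i, c' i • x i)) := by
      rw [smul_smul, ← zpow_natCast, ← ht, ← zpow_add₀ hπ0]
      congr 2
      ring
    have h2 : π ^ t ∈ T.A := T.A.pow_mem ((T.A.valuation_le_one_iff _).1 hπ1.le) t
    rw [h1, T.red_smul h2 hwO, hw0, smul_zero] at hn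
    exact hn rfl
  have := hmax (-n) ⟨c', hc'K, by rwa [neg_neg], by rwa [neg_neg]⟩
  omega

end General

variable {K0 E0 K E k : Type*} [Field K0] [Field E0] [Algebra K0 E0] [Field K] [Field E]
  [Algebra K E] [Algebra K0 K] [Field k] {Ω : Type*} {Fb : Ω → Type*} [∀ w, Field (Fb w)]
  [∀ w, Algebra k (Fb w)] {Nd : Type*} {T : MultiRed K E k Fb} {ϖ : K0}

theorem Base.cE_ne_zero (hB : Base T ϖ) : cE K E ϖ ≠ 0 := by
  simpa using hB.ne

theorem Base.cE_mem (hB : Base T ϖ) (w : Ω) : cE K E ϖ ∈ (T.R w).O :=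
  (T.R w).algebraMap_mem _ ((T.mem_A_iff w).2 hB.mem)

theorem Base.red_cE (hB : Base T ϖ) (w : Ω) : (T.R w).red (cE K E ϖ) = 0 := by
  rw [(T.R w).red_algebraMap', T.redA_eq w, hB.redA, map_zero]

/-- LEAF LT2a.  `y ∈ O_w`, `0 ≤ n` ⟹ `y * ϖ ^ n ∈ O_w`  (`Int.eq_ofNat_of_zero_le`, `zpow_natCast`, `pow_mem`, `hB.cE_mem`). -/
theorem Base.mul_zpow_mem (hB : Base T ϖ) (w : Ω) {y : E} (hy : y ∈ (T.R w).O) {n : ℤ}
    (hn : 0 ≤ n) : y * cE K E ϖ ^ n ∈ (T.R w).O := by
  obtain ⟨m, rfl⟩ := Int.eq_ofNat_of_zero_le hn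
  rw [zpow_natCast]
  exact (T.R w).O.mul_mem _ _ hy (pow_mem (hB.cE_mem w) m)

/-- LEAF LT2b.  A unit times a positive power of `ϖ` has reduction `0`; so if `y / ϖ ^ n` is a unit and `y ∈ O_w`, `red_w y = 0` then `1 ≤ n`.
(By contradiction `n ≤ 0`: `y / ϖ ^ n = y * ϖ ^ (-n)`, `red_mul` (`hB.mul_zpow_mem` for the membership of `ϖ ^ (-n) = 1 * ϖ ^ (-n)`), `hy0`, `zero_mul`.) -/
theorem Base.one_le_of_red_eq_zero (hB : Base T ϖ) (w : Ω) {y : E} (hy : y ∈ (T.R w).O)
    (hy0 : (T.R w).red y = 0) {n : ℤ} (hn : (T.R w).red (y / cE K E ϖ ^ n) ≠ 0) : 1 ≤ n := by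
  by_contra hcon
  have hn0 : 0 ≤ -n := by omega
  apply hn
  have h1 : cE K E ϖ ^ (-n) ∈ (T.R w).O := by
    have := hB.mul_zpow_mem w (T.R w).O.one_mem hn0
    rwa [one_mul] at this
  rw [div_eq_mul_inv, ← zpow_neg, (T.R w).red_mul hy h1, hy0, zero_mul]

/-- LEAF LT2c (`Disc.ker`).  `z = 0` trivial.  Otherwise `hD w z` gives `n`, `1 ≤ n` by `one_le_of_red_eq_zero`, and
`β z / ϖ = (β z / ϖ ^ n) * ϖ ^ (n - 1)` (`zpow_sub₀`, `zpow_one`, `field_simp`), `hB.mul_zpow_mem`, `mem_of_red_ne_zero`. -/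
theorem FactD.div_mem (hB : Base T ϖ) {β : E0 →+* E} (hD : FactD T β ϖ) (w : Ω) {z : E0}
    (hz : β z ∈ (T.R w).O) (h0 : (T.R w).red (β z) = 0) : β z / cE K E ϖ ∈ (T.R w).O := by
  by_cases hz0 : z = 0
  · rw [hz0, map_zero, zero_div]
    exact (T.R w).O.zero_mem
  obtain ⟨n, hn⟩ := hD w z hz0
  have h1 : 1 ≤ n := hB.one_le_of_red_eq_zero w hz h0 hn
  have hc := hB.cE_ne_zero (K := K) (E := E)
  have e1 : β z / cE K E ϖ = (β z / cE K E ϖ ^ n) * cE K E ϖ ^ (n - 1) := by
    rw [zpow_sub₀ hc, zpow_one]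
    have h2 : cE K E ϖ ^ n ≠ 0 := zpow_ne_zero _ hc
    field_simp
  rw [e1]
  exact hB.mul_zpow_mem w ((T.R w).mem_of_red_ne_zero hn) (by omega)

/-- LEAF LT2d (`Disc.scale`).  `z = 0` trivial; `hD w z` gives `n`; take `(-n).toNat`: `ϖ ^ m * β z = (β z / ϖ ^ n) * ϖ ^ (m + n)`, `0 ≤ m + n`. -/
theorem FactD.scale (hB : Base T ϖ) {β : E0 →+* E} (hD : FactD T β ϖ) (w : Ω) (z : E0) :
    ∃ n : ℕ, cE K E ϖ ^ n * β z ∈ (T.R w).O := by
  by_cases hz0 : z = 0
  · refine ⟨0, ?_⟩
    rw [hz0, map_zero, mul_zero]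
    exact (T.R w).O.zero_mem
  obtain ⟨n, hn⟩ := hD w z hz0
  have hc := hB.cE_ne_zero (K := K) (E := E)
  refine ⟨(-n).toNat, ?_⟩
  have e1 : cE K E ϖ ^ (-n).toNat * β z =
      (β z / cE K E ϖ ^ n) * cE K E ϖ ^ (((-n).toNat : ℤ) + n) := by
    rw [zpow_add₀ hc, zpow_natCast]
    have h2 : cE K E ϖ ^ n ≠ 0 := zpow_ne_zero _ hc
    field_simp
  rw [e1]
  exact hB.mul_zpow_mem w ((T.R w).mem_of_red_ne_zero hn) (by omega)

/-- LEAF LT2.  FACT D for the sup norm.  `choose n hn using fun w => hD w z hz`; `Finite.exists_min n` (or `Finset.exists_min_image`) : `w₀` with `n w₀ ≤ n w`.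
Take `n w₀`.  `β z / ϖ ^ n w₀ = (β z / ϖ ^ n w) * ϖ ^ (n w - n w₀)` (`zpow_sub₀ hB.cE_ne_zero`, `field_simp`), `hB.mul_zpow_mem`.  The component `w₀` of the reduction is `≠ 0`
(`fun h => hn w₀ (congrFun h w₀)`). -/
theorem FactD.sup [Finite Ω] [Nonempty Ω] (hB : Base T ϖ) {β : E0 →+* E} (hD : FactD T β ϖ)
    {z : E0} (hz : z ≠ 0) :
    ∃ n : ℤ, β z / cE K E ϖ ^ n ∈ T.O ∧ T.red (β z / cE K E ϖ ^ n) ≠ 0 := by
  choose n hn using fun w => hD w z hz
  obtain ⟨w₀, hw₀⟩ := Finite.exists_min n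
  have hc := hB.cE_ne_zero (K := K) (E := E)
  refine ⟨n w₀, fun w => ?_, fun h => hn w₀ (congrFun h w₀)⟩
  have e1 : β z / cE K E ϖ ^ n w₀ = (β z / cE K E ϖ ^ n w) * cE K E ϖ ^ (n w - n w₀) := by
    rw [zpow_sub₀ hc]
    have h2 : cE K E ϖ ^ n w ≠ 0 := zpow_ne_zero _ hc
    have h3 : cE K E ϖ ^ n w₀ ≠ 0 := zpow_ne_zero _ hc
    field_simp
  rw [e1]
  exact hB.mul_zpow_mem w ((T.R w).mem_of_red_ne_zero (hn w)) (by have := hw₀ w; omega)

variable {B : BC K0 E0 K E}

/-- LEAF LT3.  **Rational lifts.**  Apply `exists_fixed_lift_multi T hC` with `K0 := (algebraMap K0 K).fieldRange`, `S := B.β.toAddMonoidHom.range` (`AddMonoidHom.range`),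
`π := algebraMap K0 K ϖ`.
* `hS` : `algebraMap a • β z = β (algebraMap K0 E0 a * z)` (`Algebra.smul_def`, `map_mul`, `B.β_alg`);
* `hπ1` : pick `w₀`; `((T.R w₀).redA_eq_zero_iff _).1`, `T.redA_eq`, `T.A_eq w₀`, `hR.redA`, `hR.mem`;
* `hD` : `hR.factD.sup hR.toBase` with `-n` : `π ^ (-n) • β z = β z / cE ϖ ^ n` (`Algebra.smul_def`, `map_zpow₀`, `zpow_neg`, `div_eq_mul_inv`, `mul_comm`);
* `hRes` : `hR.resA (T.redA a)`;
* `hArch` : `hR.arch b` gives `s`; take `s + 1` : `b π ^ (s + 1) = (b π ^ s) π`, `map_mul`, `valuation_le_one_iff`, `mul_lt_one_of_nonneg_of_lt_one_right`-type lemma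
  (`mul_lt_one_of_le_of_lt`...; the value group is a `LinearOrderedCommGroupWithZero`). -/
theorem Rat.exists_lift [Finite Ω] [Nonempty Ω] (hR : Rat T B ϖ) (hC : T.IsCartesian)
    (V : Submodule K E) [Module.Finite K V]
    (hV : V ≤ Submodule.span K {y | y ∈ V ∧ y ∈ Set.range B.β}) {u : E} (huV : u ∈ V)
    (huO : u ∈ T.O) :
    ∃ u0 : E0, B.β u0 ∈ V ∧ B.β u0 ∈ T.O ∧ T.red (B.β u0) = T.red u := by
  have hπ0 : algebraMap K0 K ϖ ≠ 0 := by simpa using hR.ne
  have hπ1 : T.A.valuation (algebraMap K0 K ϖ) < 1 := by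
    by_contra h
    have h1 : 1 ≤ T.A.valuation (algebraMap K0 K ϖ) := not_lt.1 h
    have h2 : (algebraMap K0 K ϖ)⁻¹ ∈ T.A := by
      rw [← T.A.valuation_le_one_iff, map_inv₀]
      exact inv_le_one_of_one_le₀ h1
    exact (T.redA_ne_zero_iff.2 ⟨hπ0, hR.mem, h2⟩) hR.redA
  obtain ⟨u0, h1, ⟨z, rfl⟩, h3, h4⟩ := exists_fixed_lift_multi T hC (algebraMap K0 K).fieldRange
    B.β.toAddMonoidHom.range
    (by
      rintro _ ⟨a, rfl⟩ _ ⟨z, rfl⟩
      refine ⟨algebraMap K0 E0 a * z, ?_⟩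
      show B.β (algebraMap K0 E0 a * z) = algebraMap K0 K a • B.β z
      rw [Algebra.smul_def, map_mul, B.β_alg])
    (algebraMap K0 K ϖ) ⟨ϖ, rfl⟩ hπ0 hπ1
    (by
      rintro _ ⟨z, rfl⟩ hz
      have hz0 : z ≠ 0 := by
        rintro rfl
        exact hz (map_zero B.β)
      obtain ⟨n, hn1, hn2⟩ := hR.factD.sup hR.toBase hz0
      have he : algebraMap K0 K ϖ ^ (-n) • B.β z = B.β z / cE K E ϖ ^ n := by
        rw [Algebra.smul_def, map_zpow₀, zpow_neg, div_eq_mul_inv, mul_comm]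
      refine ⟨-n, ?_, ?_⟩
      · show algebraMap K0 K ϖ ^ (-n) • B.β z ∈ T.O
        rw [he]; exact hn1
      · show T.red (algebraMap K0 K ϖ ^ (-n) • B.β z) ≠ 0
        rw [he]; exact hn2)
    (by
      intro a _
      obtain ⟨a0, h1, h2⟩ := hR.resA (T.redA a)
      exact ⟨algebraMap K0 K a0, ⟨a0, rfl⟩, h1, h2⟩)
    (by
      intro b
      obtain ⟨s, hs⟩ := hR.arch b
      refine ⟨s + 1, ?_⟩
      rw [pow_succ, ← mul_assoc, map_mul]
      have h5 := (T.A.valuation_le_one_iff _).2 hs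
      calc T.A.valuation (b * algebraMap K0 K ϖ ^ s) * T.A.valuation (algebraMap K0 K ϖ)
          ≤ 1 * T.A.valuation (algebraMap K0 K ϖ) := by gcongr
        _ < 1 := by rwa [one_mul])
    V
    (by
      refine hV.trans (Submodule.span_mono ?_)
      rintro y ⟨hy1, z, rfl⟩
      exact ⟨hy1, z, rfl⟩)
    huV huO
  exact ⟨z, h1, h3, h4⟩

/-- LEAF LT4.  **Galois descent**: a stable subspace is spanned by its rational elements.
`have := B.fin V inferInstance`; `n := finrank K0 (B.pl V)`, `b := Module.finBasis K0 (B.pl V)`, `z i := (b i : E0)` is `K0`-independent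
(`b.linearIndependent.map' (Submodule.subtype _) (Submodule.ker_subtype _)`), so `β ∘ z` is `K`-independent (`hind`), with values in `V` (`(b i).2`).
Lift it to `V` (`LinearIndependent.of_comp V.subtype`); `finrank K V ≤ n` by `B.desc V inferInstance hst`, and `n ≤ finrank K V` (`fintype_card_le_finrank`), so it spans `V`
(`LinearIndependent.span_eq_top_of_card_eq_finrank'`), as in the proof of `DR.Abs.IsCartesian.exists_coeff`. -/
theorem le_span_of_stable (B : BC K0 E0 K E)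
    (hind : ∀ (n : ℕ) (z : Fin n → E0), LinearIndependent K0 z →
      LinearIndependent K (fun i => B.β (z i)))
    (V : Submodule K E) [Module.Finite K V] (hst : ∀ g ∈ B.Γ, ∀ u ∈ V, g • u ∈ V) :
    V ≤ Submodule.span K {y | y ∈ V ∧ y ∈ Set.range B.β} := by
  have := B.fin V inferInstance
  set n := Module.finrank K0 (B.pl V) with hn
  let b : Module.Basis (Fin n) K0 (B.pl V) := Module.finBasis K0 (B.pl V)
  have hz : LinearIndependent K0 (fun i => ((b i : B.pl V) : E0)) :=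
    b.linearIndependent.map' (Submodule.subtype _) (Submodule.ker_subtype _)
  have hK : LinearIndependent K (fun i => B.β ((b i : B.pl V) : E0)) := hind n _ hz
  have hmem : ∀ i, B.β ((b i : B.pl V) : E0) ∈ V := fun i => (b i).2
  have hKV : LinearIndependent K (fun i => (⟨B.β ((b i : B.pl V) : E0), hmem i⟩ : V)) :=
    LinearIndependent.of_comp V.subtype hK
  have hcard : Fintype.card (Fin n) = Module.finrank K V := by
    apply le_antisymm hKV.fintype_card_le_finrank
    rw [Fintype.card_fin]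
    exact B.desc V inferInstance hst
  have htop := hKV.span_eq_top_of_card_eq_finrank' hcard
  intro y hy
  have hy' : (⟨y, hy⟩ : V) ∈ Submodule.span K
      (Set.range fun i => (⟨B.β ((b i : B.pl V) : E0), hmem i⟩ : V)) := by
    rw [htop]; trivial
  obtain ⟨a, ha⟩ := (Submodule.mem_span_range_iff_exists_fun K).mp hy'
  have hya : y = ∑ j, a j • B.β ((b j : B.pl V) : E0) := by
    have := congrArg (V.subtype) ha
    simpa using this.symm
  rw [hya]
  exact Submodule.sum_mem _ fun j _ => Submodule.smul_mem _ _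
    (Submodule.subset_span ⟨hmem j, _, rfl⟩)

/-- LEAF LT5.  **Residue lifts.**  `hS u (fun _ => 1) (fun _ => one_ne_zero)` gives `h ∈ T.O` with `T.red h = u` (`one_smul`).  `hR.gen h` and
`Submodule.mem_span_finite_of_mem_span` (or `Submodule.mem_span_iff_exists_finset_subset`) : a finite `s ⊆ range β` with `h ∈ span K s`.  `V := span K s` is finite dimensional
(`Module.Finite.span_of_finite`/`FiniteDimensional.span_finset`), `hV` by `Submodule.span_mono` (`y ∈ s → y ∈ V ∧ y ∈ range β`).  `hR.exists_lift hC V hV`. -/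
theorem Rat.exists_red [Finite Ω] [Nonempty Ω] (hR : Rat T B ϖ) (hC : T.IsCartesian) (hS : T.Sep)
    (u : ∀ w, Fb w) : ∃ z : E0, B.β z ∈ T.O ∧ T.red (B.β z) = u := by
  obtain ⟨h, hh⟩ := hS u (fun _ => 1) (fun _ => one_ne_zero)
  have hhO : h ∈ T.O := fun w => by
    have := (hh w).1
    rwa [one_smul] at this
  have hhu : T.red h = u := by
    funext w
    have := (hh w).2
    rwa [one_smul] at this
  obtain ⟨s, hs, hhs⟩ := Submodule.mem_span_finite_of_mem_span (hR.gen h)
  haveI : Module.Finite K (Submodule.span K (s : Set E)) :=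
    Module.Finite.span_of_finite K s.finite_toSet
  have hV : Submodule.span K (s : Set E) ≤
      Submodule.span K {y | y ∈ Submodule.span K (s : Set E) ∧ y ∈ Set.range B.β} :=
    Submodule.span_mono fun y hy => ⟨Submodule.subset_span hy, hs hy⟩
  obtain ⟨z, -, hzO, hz⟩ := hR.exists_lift hC (Submodule.span K (s : Set E)) hV hhs hhO
  exact ⟨z, hzO, hz.trans hhu⟩

theorem Rat.exists_red_at [Finite Ω] [Nonempty Ω] (hR : Rat T B ϖ) (hC : T.IsCartesian)
    (hS : T.Sep) (w : Ω) (u : Fb w) : ∃ z : E0, B.β z ∈ (T.R w).O ∧ (T.R w).red (B.β z) = u := by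
  classical
  obtain ⟨z, hz, hu⟩ := hR.exists_red hC hS (Function.update 0 w u)
  refine ⟨z, hz w, ?_⟩
  have := congrFun hu w
  rwa [Function.update_self] at this

/-- LEAF LT6.  **The unit ball is bounded.**  `V := Submodule.span K (B.β '' V0)`, finite dimensional (the image of a finite spanning set of `V0` spans: `Module.Finite.fg_top`/
`Submodule.fg_iff_finiteDimensional`; `β (a • y) = algebraMap a • β y`), spanned by rational elements.
`m := finrank k (T.redSub V)`, `bT := Module.finBasis k (T.redSub V)`; each `bT j` is `T.red u`, `u ∈ V ∩ T.O`; `hR.exists_lift hC V hV` : `x j : E0`, `β (x j) ∈ V ∩ T.O`,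
`T.red (β (x j)) = bT j`.  `Bf := Finset.univ.image x`.
For `y ∈ V0`, `β y ∈ T.O` : `hC.exists_coeff V (β ∘ x) ...` gives `a j ∈ T.A` with `β y = ∑ a j • β (x j)`.
The `a j` are rational: `β ∘ x` is `K`-independent (`T.linearIndependent_of_red`), so `x` is `K0`-independent (a `K0`-relation maps to a `K`-relation; `B.β_injective`);
if `y ∉ span K0 (range x)` then `Fin.cons y x` is `K0`-independent (`linearIndependent_finCons`), so `β ∘ Fin.cons y x` is `K`-independent (`hR.indep`), which contradicts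
`β y = ∑ a j • β (x j)`.  So `y = ∑ c j • x j`, `c j : K0`, and `algebraMap (c j) = a j` by independence; so `c j ∈ T.A.comap _`. -/
theorem Rat.exists_bdd [Finite Ω] [Nonempty Ω] (hR : Rat T B ϖ) (hC : T.IsCartesian)
    (hA : ∀ c : k, ∃ a : K0, algebraMap K0 K a ∈ T.A ∧ T.redA (algebraMap K0 K a) = c)
    (hO : ∀ (w : Ω) (u : Fb w), ∃ z : E0, B.β z ∈ (T.R w).O ∧ (T.R w).red (B.β z) = u)
    (V0 : Submodule K0 E0) [Module.Finite K0 V0] :
    ∃ Bf : Finset E0, ∀ y ∈ V0, y ∈ (restrict T B.β B.β_alg hA hO).O →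
      y ∈ Submodule.span (restrict T B.β B.β_alg hA hO).A (Bf : Set E0) := by
  classical
  have hβsmul : ∀ (c : K0) (z : E0), B.β (c • z) = algebraMap K0 K c • B.β z := by
    intro c z
    rw [Algebra.smul_def, map_mul, B.β_alg, Algebra.smul_def]
  -- the `K`-span of `V0`
  obtain ⟨s, hs⟩ := (Module.Finite.iff_fg (N := V0)).1 inferInstance
  have hVle : Submodule.span K (B.β '' (V0 : Set E0)) ≤ Submodule.span K (B.β '' (s : Set E0)) := by
    rw [Submodule.span_le]
    rintro _ ⟨y, hy, rfl⟩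
    have hy' : y ∈ Submodule.span K0 (s : Set E0) := by rw [hs]; exact hy
    induction hy' using Submodule.span_induction with
    | mem z hz => exact Submodule.subset_span ⟨z, hz, rfl⟩
    | zero => rw [map_zero]; exact Submodule.zero_mem _
    | add z z' _ _ h1 h2 =>
      rw [map_add]
      exact Submodule.add_mem _ (h1 (by rw [← hs]; assumption)) (h2 (by rw [← hs]; assumption))
    | smul c z _ h1 =>
      rw [hβsmul]
      exact Submodule.smul_mem _ _ (h1 (by rw [← hs]; assumption))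
  have hfin0 : Module.Finite K (Submodule.span K (B.β '' (s : Set E0))) :=
    Module.Finite.span_of_finite K (s.finite_toSet.image _)
  have hfin : Module.Finite K (Submodule.span K (B.β '' (V0 : Set E0))) :=
    Submodule.finiteDimensional_of_le hVle
  set V : Submodule K E := Submodule.span K (B.β '' (V0 : Set E0)) with hVdef
  have hV : V ≤ Submodule.span K {y | y ∈ V ∧ y ∈ Set.range B.β} := by
    apply Submodule.span_mono
    rintro _ ⟨y, hy, rfl⟩
    exact ⟨Submodule.subset_span ⟨y, hy, rfl⟩, y, rfl⟩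
  have hfinr := T.finite_redSub V
  have hlift : ∀ j : Fin (Module.finrank k (T.redSub V)), ∃ u0 : E0, B.β u0 ∈ V ∧ B.β u0 ∈ T.O ∧
      T.red (B.β u0) = (Module.finBasis k (T.redSub V) j : ∀ w, Fb w) := by
    intro j
    obtain ⟨u, huV, huO, hu⟩ := (Module.finBasis k (T.redSub V) j).2
    obtain ⟨u0, h1, h2, h3⟩ := hR.exists_lift hC V hV huV huO
    exact ⟨u0, h1, h2, h3.trans hu⟩
  choose x hxV hxO hxred using hlift
  refine ⟨Finset.univ.image x, ?_⟩
  intro y hyV0 hyO
  have hyO' : B.β y ∈ T.O := hyO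
  have hyV : B.β y ∈ V := Submodule.subset_span ⟨y, hyV0, rfl⟩
  have hfun : (fun j => T.red (B.β (x j))) =
      fun j => (Module.finBasis k (T.redSub V) j : ∀ w, Fb w) := funext hxred
  have hli : LinearIndependent k (fun j => T.red (B.β (x j))) := by
    rw [hfun]
    exact (Module.finBasis k (T.redSub V)).linearIndependent.map' (Submodule.subtype _)
      (Submodule.ker_subtype _)
  have hspan : T.redSub V ≤ Submodule.span k (Set.range fun j => T.red (B.β (x j))) := by
    intro z hz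
    rw [hfun]
    have h1 := (Module.finBasis k (T.redSub V)).sum_repr ⟨z, hz⟩
    have h2 := congrArg (Submodule.subtype (T.redSub V)) h1
    rw [map_sum] at h2
    simp only [map_smul, Submodule.subtype_apply] at h2
    rw [← h2]
    exact Submodule.sum_mem _ fun j _ =>
      Submodule.smul_mem _ _ (Submodule.subset_span ⟨j, rfl⟩)
  obtain ⟨a, haA, hya⟩ := hC.exists_coeff V (fun j => B.β (x j)) hxV hxO hli hspan hyV hyO'
  have hK : LinearIndependent K (fun j => B.β (x j)) := T.linearIndependent_of_red hxO hli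
  have hx0 : LinearIndependent K0 x := by
    rw [Fintype.linearIndependent_iff]
    intro g hg j
    have h1 := congrArg B.β hg
    rw [map_sum, map_zero] at h1
    simp only [hβsmul] at h1
    have h2 := Fintype.linearIndependent_iff.mp hK (fun j => algebraMap K0 K (g j)) h1 j
    exact (map_eq_zero _).1 h2
  have hyspan : y ∈ Submodule.span K0 (Set.range x) := by
    by_contra hcon
    have h1 : LinearIndependent K0 (Fin.cons y x : Fin (Module.finrank k (T.redSub V) + 1) → E0) :=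
      linearIndependent_finCons.mpr ⟨hx0, hcon⟩
    have h2 := hR.indep _ _ h1
    have h3 : (fun i => B.β ((Fin.cons y x : Fin (Module.finrank k (T.redSub V) + 1) → E0) i)) =
        (Fin.cons (B.β y) (fun j => B.β (x j)) :
          Fin (Module.finrank k (T.redSub V) + 1) → E) := by
      funext i
      refine Fin.cases ?_ (fun j => ?_) i
      · simp
      · simp
    rw [h3] at h2
    apply (linearIndependent_finCons.mp h2).2
    rw [hya]
    exact Submodule.sum_mem _ fun j _ =>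
      Submodule.smul_mem _ _ (Submodule.subset_span ⟨j, rfl⟩)
  obtain ⟨c, hc⟩ := (Submodule.mem_span_range_iff_exists_fun K0).mp hyspan
  have hca : ∀ j, algebraMap K0 K (c j) = a j := by
    intro j
    have h1 := congrArg B.β hc
    rw [map_sum] at h1
    simp only [hβsmul] at h1
    have h2 : ∑ j, (algebraMap K0 K (c j) - a j) • B.β (x j) = 0 := by
      simp only [sub_smul]
      rw [Finset.sum_sub_distrib, h1, ← hya, sub_self]
    exact sub_eq_zero.mp (Fintype.linearIndependent_iff.mp hK _ h2 j)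
  rw [← hc]
  refine Submodule.sum_mem _ fun j _ => ?_
  have hcj : c j ∈ (restrict T B.β B.β_alg hA hO).A := by
    show algebraMap K0 K (c j) ∈ T.A
    rw [hca j]
    exact haA j
  have h5 : c j • x j = (⟨c j, hcj⟩ : (restrict T B.β B.β_alg hA hO).A) • x j := rfl
  rw [h5]
  exact Submodule.smul_mem _ _ (Submodule.subset_span
    (Finset.mem_coe.mpr (Finset.mem_image.mpr ⟨j, Finset.mem_univ _, rfl⟩)))

end Fermat.Agent.MR.PLC.Abs
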