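import Fermat.Agent.MR.PLC.Abs.Kum

/-!
# MR / PLC / Abs : THE SLOPE FORMULA for a rational function on a nodal reduction
-/

set_option autoImplicit false
set_option linter.unusedSectionVars false

noncomputable section

namespace Fermat.Agent.MR.PLC.Abs

open AlgebraicCurve Fermat.Agent.Lib.RR Fermat.Agent.GAL.RED Fermat.Agent.DR.Abs Fermat.Agent.S36.RC
  Fermat.Agent.S36.Abs Fermat.Agent.MR.PLA

variable {K0 E0 K E k : Type*} [Field K0] [Field E0] [Algebra K0 E0] [Field K] [Field E]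
  [Algebra K E] [Algebra K0 K] [Field k] {Ω : Type*} {Fb : Ω → Type*} [∀ w, Field (Fb w)]
  [∀ w, Algebra k (Fb w)] {Nd : Type*} {T : MultiRed K E k Fb} {B : BC K0 E0 K E} {ϖ : K0}
  [Fintype Ω] [Fintype Nd] [IsFF K E] [IsAlgClosed K] [∀ w, IsFF k (Fb w)] [IsAlgClosed k]

/-- **THE SLOPE FORMULA** for `f ∈ E0` with `div f = p D` :  with `i w = w(f) ∈ ℤ` and `fb w = red_w (f / ϖ ^ i w)`,
`ord_P (fb w) ≡ i w' - i w (mod p)` at a node `(w, P) ~ (w', P')`, `ord_P (fb w) ≡ 0 (mod p)` at all the other places. -/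
theorem slope_formula_rat (hR : Rat T B ϖ) {x : E} {N : NodeData k Fb Nd} {a₀ : ℕ}
    (hN : IsPreNodal T x N a₀) (hloop : ∀ e, N.i₁ e ≠ N.i₂ e) {x0 ξ0 : E0} (hx : B.β x0 = x)
    (hξ : IsCoord T (B.β ξ0) N)
    (hxξ : ∀ P : Place K E, 0 ≤ P.ord (B.β ξ0) → 0 ≤ P.ord x) {m : ℕ} {Ψ : Ω → E}
    (hΨ : IsMeter T (algebraMap K0 K ϖ) (B.β ξ0) N m Ψ)
    {p : ℕ} (hp : 0 < p) {f : E0} (hf : f ≠ 0)
    (hdiv : ∀ P : Place K E, (p : ℤ) ∣ P.ord (B.β f)) :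
    ∃ i : Ω → ℤ, (∀ w, (T.R w).red (B.β f / cE K E ϖ ^ i w) ≠ 0) ∧
      (∀ e, (p : ℤ) ∣ (N.p₁ e).ord ((T.R (N.i₁ e)).red (B.β f / cE K E ϖ ^ i (N.i₁ e)))
        - (i (N.i₂ e) - i (N.i₁ e))) ∧
      (∀ e, (p : ℤ) ∣ (N.p₂ e).ord ((T.R (N.i₂ e)).red (B.β f / cE K E ϖ ^ i (N.i₂ e)))
        - (i (N.i₁ e) - i (N.i₂ e))) ∧
      ∀ (w : Ω) (P : Place k (Fb w)), (∀ s, N.branch s ≠ ⟨w, P⟩) →
        (p : ℤ) ∣ P.ord ((T.R w).red (B.β f / cE K E ϖ ^ i w)) := by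
  have : Nonempty Ω := hN.cart.nonempty
  have hA := hR.resA
  have hO := hR.exists_red_at hN.cart hN.sep
  have hV := van_of_meter hR hN hx hξ hxξ hΨ
  have hg : (genusFF K E : ℤ) - 1 ≤ ∑ w, ((genusFF k (Fb w) : ℤ) - 1) + Fintype.card Nd := by
    have := IsPreNodal.genus_eq hN
    linarith
  obtain ⟨κ, hκ⟩ := exists_kum hA hO hR hN.cart hN.sep hξ hV hg hp hf hdiv
  have hfb : ∀ w, κ.fb w = (T.R w).red (B.β f / cE K E ϖ ^ κ.i w) := by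
    intro w
    unfold Kum.fb
    rw [restrict_red, β_div_zpow, hκ]
  obtain ⟨h1, h2, h3⟩ := slope_formula (hR.disc hA hO) hp κ hN.inj hloop
  refine ⟨κ.i, fun w => ?_, fun e => ?_, fun e => ?_, fun w P hP => ?_⟩
  · rw [← hfb]
    exact κ.red_f w
  · rw [← hfb]
    exact h1 e
  · rw [← hfb]
    exact h2 e
  · rw [← hfb]
    exact h3 w P hP

end Fermat.Agent.MR.PLC.Abs
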