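import Fermat.Agent.MR.PLC.Abs.Defs

/-!
# MR / PLC / Abs : restriction of a family of reductions to a rational structure
-/

set_option autoImplicit false

noncomputable section

namespace Fermat.Agent.MR.PLC.Abs

open AlgebraicCurve Fermat.Agent.Lib.RR Fermat.Agent.GAL.RED Fermat.Agent.DR.Abs Fermat.Agent.S36.RC
  Fermat.Agent.S36.Abs

variable {K0 E0 K E k : Type*} [Field K0] [Field E0] [Algebra K0 E0] [Field K] [Field E]
  [Algebra K E] [Algebra K0 K] [Field k] {Ω : Type*} {Fb : Ω → Type*} [∀ w, Field (Fb w)]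
  [∀ w, Algebra k (Fb w)] {Nd : Type*}

/-- restriction of a reduction datum. -/
def restrictR {Fb' : Type*} [Field Fb'] [Algebra k Fb'] (R : RedData K E k Fb') (β : E0 →+* E)
    (hβ : ∀ a : K0, β (algebraMap K0 E0 a) = algebraMap K E (algebraMap K0 K a))
    (hA : ∀ c : k, ∃ a : K0, algebraMap K0 K a ∈ R.A ∧ R.redA (algebraMap K0 K a) = c)
    (hO : ∀ u : Fb', ∃ z : E0, β z ∈ R.O ∧ R.red (β z) = u) : RedData K0 E0 k Fb' where
  A := R.A.comap (algebraMap K0 K)
  O := R.O.comap β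
  resA := R.resA.comp ((algebraMap K0 K).restrict (R.A.comap (algebraMap K0 K)) R.A fun _ h => h)
  res := R.res.comp (β.restrict (R.O.comap β) R.O fun _ h => h)
  resA_surjective := fun c => by
    obtain ⟨a, ha, hc⟩ := hA c
    refine ⟨⟨a, ha⟩, ?_⟩
    rw [← hc, R.redA_of_mem ha]
    rfl
  res_surjective := fun u => by
    obtain ⟨z, hz, hu⟩ := hO u
    refine ⟨⟨z, hz⟩, ?_⟩
    rw [← hu, R.red_of_mem hz]
    rfl
  algebraMap_mem := fun a ha => by
    show β (algebraMap K0 E0 a) ∈ R.O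
    rw [hβ]
    exact R.algebraMap_mem _ ha
  res_algebraMap := fun a ha => by
    have h1 : β (algebraMap K0 E0 a) ∈ R.O := by
      rw [hβ]
      exact R.algebraMap_mem _ ha
    show R.res ⟨β (algebraMap K0 E0 a), h1⟩ = algebraMap k Fb' (R.resA ⟨algebraMap K0 K a, ha⟩)
    rw [← R.res_algebraMap _ ha]
    congr 1
    exact Subtype.ext (hβ a)

section

variable {Fb' : Type*} [Field Fb'] [Algebra k Fb'] (R : RedData K E k Fb') (β : E0 →+* E)
    (hβ : ∀ a : K0, β (algebraMap K0 E0 a) = algebraMap K E (algebraMap K0 K a))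
    (hA : ∀ c : k, ∃ a : K0, algebraMap K0 K a ∈ R.A ∧ R.redA (algebraMap K0 K a) = c)
    (hO : ∀ u : Fb', ∃ z : E0, β z ∈ R.O ∧ R.red (β z) = u)

theorem mem_restrictR_O {z : E0} : z ∈ (restrictR R β hβ hA hO).O ↔ β z ∈ R.O := Iff.rfl

theorem mem_restrictR_A {a : K0} : a ∈ (restrictR R β hβ hA hO).A ↔ algebraMap K0 K a ∈ R.A :=
  Iff.rfl

theorem restrictR_red (z : E0) : (restrictR R β hβ hA hO).red z = R.red (β z) := by
  by_cases hz : β z ∈ R.O
  · rw [R.red_of_mem hz, (restrictR R β hβ hA hO).red_of_mem (f := z) hz]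
    rfl
  · rw [R.red_of_not_mem hz, (restrictR R β hβ hA hO).red_of_not_mem (f := z) hz]

theorem restrictR_redA (a : K0) :
    (restrictR R β hβ hA hO).redA a = R.redA (algebraMap K0 K a) := by
  by_cases hz : algebraMap K0 K a ∈ R.A
  · rw [R.redA_of_mem hz, (restrictR R β hβ hA hO).redA_of_mem (a := a) hz]
    rfl
  · rw [R.redA_of_not_mem hz, (restrictR R β hβ hA hO).redA_of_not_mem (a := a) hz]

end

/-- restriction of a family of reductions. -/
def restrict (T : MultiRed K E k Fb) (β : E0 →+* E)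
    (hβ : ∀ a : K0, β (algebraMap K0 E0 a) = algebraMap K E (algebraMap K0 K a))
    (hA : ∀ c : k, ∃ a : K0, algebraMap K0 K a ∈ T.A ∧ T.redA (algebraMap K0 K a) = c)
    (hO : ∀ (w : Ω) (u : Fb w), ∃ z : E0, β z ∈ (T.R w).O ∧ (T.R w).red (β z) = u) :
    MultiRed K0 E0 k Fb where
  R := fun w => restrictR (T.R w) β hβ (fun c => by
    obtain ⟨a, ha, hc⟩ := hA c
    exact ⟨a, (T.mem_A_iff w).2 ha, by rw [T.redA_eq w, hc]⟩) (hO w)
  A := T.A.comap (algebraMap K0 K)
  redA := fun a => T.redA (algebraMap K0 K a)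
  A_eq := fun w => by
    show (T.R w).A.comap _ = _
    rw [T.A_eq w]
  redA_eq := fun w a => by
    rw [restrictR_redA, T.redA_eq w]
  redA_surj := fun c => by
    obtain ⟨a, ha, hc⟩ := hA c
    exact ⟨a, ha, hc⟩

section

variable (T : MultiRed K E k Fb) (β : E0 →+* E)
    (hβ : ∀ a : K0, β (algebraMap K0 E0 a) = algebraMap K E (algebraMap K0 K a))
    (hA : ∀ c : k, ∃ a : K0, algebraMap K0 K a ∈ T.A ∧ T.redA (algebraMap K0 K a) = c)
    (hO : ∀ (w : Ω) (u : Fb w), ∃ z : E0, β z ∈ (T.R w).O ∧ (T.R w).red (β z) = u)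

theorem mem_restrict_RO {w : Ω} {z : E0} :
    z ∈ ((restrict T β hβ hA hO).R w).O ↔ β z ∈ (T.R w).O := Iff.rfl

theorem mem_restrict_O {z : E0} : z ∈ (restrict T β hβ hA hO).O ↔ β z ∈ T.O := Iff.rfl

theorem mem_restrict_A {a : K0} : a ∈ (restrict T β hβ hA hO).A ↔ algebraMap K0 K a ∈ T.A :=
  Iff.rfl

theorem restrict_red (w : Ω) (z : E0) :
    ((restrict T β hβ hA hO).R w).red z = (T.R w).red (β z) := by
  exact restrictR_red (T.R w) β hβ (fun c => by
    obtain ⟨a, ha, hc⟩ := hA c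
    exact ⟨a, (T.mem_A_iff w).2 ha, by rw [T.redA_eq w, hc]⟩) (hO w) z

theorem restrict_redA (a : K0) :
    (restrict T β hβ hA hO).redA a = T.redA (algebraMap K0 K a) := rfl

end

end Fermat.Agent.MR.PLC.Abs
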