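import Fermat.Agent.MR.PLC.Abs.Lattice

/-!
# MR / PLC / Abs : the vanishing estimates (V') from the meter
-/

set_option autoImplicit false
set_option linter.unusedSectionVars false

noncomputable section

namespace Fermat.Agent.MR.PLC.Abs

open AlgebraicCurve Fermat.Agent.Lib.RR Fermat.Agent.GAL.RED Fermat.Agent.DR.Abs Fermat.Agent.S36.RC
  Fermat.Agent.S36.Abs

variable {K0 E0 K E k : Type*} [Field K0] [Field E0] [Algebra K0 E0] [Field K] [Field E]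
  [Algebra K E] [Algebra K0 K] [Field k] {Ω : Type*} {Fb : Ω → Type*} [∀ w, Field (Fb w)]
  [∀ w, Algebra k (Fb w)] {Nd : Type*}

/-- (V') : a regular integral function which vanishes to the order `α` (in units of `π`) along one of the two components through a node vanishes to the order `α` at the node
on the other component. -/
def Van [HasPrincipalDivisors K E] (T : MultiRed K E k Fb) (π : K) (ξ : E)
    (N : NodeData k Fb Nd) : Prop :=
  ∀ (α : ℕ) (z : E) (e : Nd), InB T ξ z →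
    ((z / algebraMap K E π ^ α ∈ (T.R (N.i₂ e)).O →
      (T.R (N.i₁ e)).red z = 0 ∨ (α : ℤ) ≤ (N.p₁ e).ord ((T.R (N.i₁ e)).red z)) ∧
     (z / algebraMap K E π ^ α ∈ (T.R (N.i₁ e)).O →
      (T.R (N.i₂ e)).red z = 0 ∨ (α : ℤ) ≤ (N.p₂ e).ord ((T.R (N.i₂ e)).red z)))

variable [Fintype Ω] [Fintype Nd] [IsFF K E] [IsAlgClosed K] [∀ w, IsFF k (Fb w)] [IsAlgClosed k]
  {T : MultiRed K E k Fb}

/-- LEAF VN1.  **The estimate.**  `y := (z * ε ^ α) ^ m * (Ψ⁻¹) ^ α`.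
(1) `y ∈ T.O`.  Let `w'`.  If `red_{w'} Ψ ≠ 0` then `Ψ⁻¹ ∈ O_{w'}` (`inv_mem_of_red_ne_zero`), `z, ε ∈ O_{w'}` (`hz.1`, `hε.1`).
    If `red_{w'} Ψ = 0` then `hdich w'` gives `red_{w'} (Ψ / π ^ m) ≠ 0`, so `(Ψ / π ^ m)⁻¹ ∈ O_{w'}`, and `y = ((z * ε ^ α) / π ^ α) ^ m * ((Ψ / π ^ m)⁻¹) ^ α` (`field_simp`; `Ψ ≠ 0` since
    `red_j Ψ ≠ 0`, `π ≠ 0`); `(z * ε ^ α) / π ^ α = (z / π ^ α) * ε ^ α` if `w' = i` (`hα`), `= z * (ε / π) ^ α` if `w' ≠ i` (`hεZ`).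
(2) `∃ a, y ∈ L(a (ξ)_∞)` : `mul_mem_L`, `pow_mem_L` (`DR/Abs/Bipole.lean`; see the proofs of `InB.mul`, `InB.pow` in `S36/Abs/LyingOver/Defs.lean`) from `hz.2`, `hε.2`, `hreg`.
(3) `InB.ord_nonneg hS hnc hdeg ⟨(1), (2)⟩ j P hP : 0 ≤ ord_P (red_j y)`.
(4) `red_j y = (red_j z * red_j ε ^ α) ^ m * ((red_j Ψ)⁻¹) ^ α` (`red_mul`, `red_pow`, `red_inv`).  If `red_j z ≠ 0` : `ord_P` of this is `m * (ord z̄ + α * 0) - α * ord Ψ̄`
    (`Place.ord_mul`, `S24.ord_pow` / `Place.ord_pow`, `Place.ord_inv`: grep in `Fermat/Agent/Lib/RR`, `Fermat/Agent/S24`), so `α * m ≤ α * ord Ψ̄ ≤ m * ord z̄`, `nlinarith`/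
    `le_of_mul_le_mul_left`. -/
theorem van_aux (hS : T.Sep) {ξ : E}
    (hnc : ∀ w, (T.R w).red ξ ∉ Set.range (algebraMap k (Fb w)))
    (hdeg : Divisor.degree (poleDiv (K := K) ξ)
      = ∑ w, Divisor.degree (poleDiv (K := k) ((T.R w).red ξ)))
    {π : K} (hπ : π ≠ 0) {m : ℕ} (hm : 0 < m) (i j : Ω) (P : Place k (Fb j))
    (hP : 0 ≤ P.ord ((T.R j).red ξ)) {Ψ : E}
    (hdich : ∀ w', (T.R w').red (Ψ / algebraMap K E π ^ m) ≠ 0 ∨ (T.R w').red Ψ ≠ 0)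
    (hreg : ∃ a : ℕ, Ψ⁻¹ ∈ riemannRochSpace (a • poleDiv (K := K) ξ))
    (hunit : (T.R j).red Ψ ≠ 0) (hord : (m : ℤ) ≤ P.ord ((T.R j).red Ψ))
    {ε : E} (hε : InB T ξ ε)
    (hεZ : ∀ w', w' ≠ i → (T.R w').red Ψ = 0 → ε / algebraMap K E π ∈ (T.R w').O)
    (hεj : (T.R j).red ε ≠ 0) (hεP : P.ord ((T.R j).red ε) = 0)
    (α : ℕ) {z : E} (hz : InB T ξ z) (hα : z / algebraMap K E π ^ α ∈ (T.R i).O) :
    (T.R j).red z = 0 ∨ (α : ℤ) ≤ P.ord ((T.R j).red z) := by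
  have hp0 : algebraMap K E π ≠ 0 := by
    rw [Ne, map_eq_zero]
    exact hπ
  have hΨ0 : Ψ ≠ 0 := (T.R j).ne_zero_of_red_ne_zero hunit
  -- (1)
  have h1 : (z * ε ^ α) ^ m * (Ψ⁻¹) ^ α ∈ T.O := by
    intro w'
    by_cases h0 : (T.R w').red Ψ = 0
    · have hd : (T.R w').red (Ψ / algebraMap K E π ^ m) ≠ 0 :=
        (hdich w').resolve_right (not_not.mpr h0)
      have hinv : (Ψ / algebraMap K E π ^ m)⁻¹ ∈ (T.R w').O := (T.R w').inv_mem_of_red_ne_zero hd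
      have hbase : (z * ε ^ α) / algebraMap K E π ^ α ∈ (T.R w').O := by
        by_cases hw : w' = i
        · subst hw
          have e : (z * ε ^ α) / algebraMap K E π ^ α = (z / algebraMap K E π ^ α) * ε ^ α := by
            field_simp
          rw [e]
          exact (T.R w').O.mul_mem _ _ hα ((T.R w').O.pow_mem (hε.1 w') α)
        · have e : (z * ε ^ α) / algebraMap K E π ^ α = z * (ε / algebraMap K E π) ^ α := by
            rw [div_pow, mul_div_assoc]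
          rw [e]
          exact (T.R w').O.mul_mem _ _ (hz.1 w') ((T.R w').O.pow_mem (hεZ w' hw h0) α)
      have e : (z * ε ^ α) ^ m * (Ψ⁻¹) ^ α =
          ((z * ε ^ α) / algebraMap K E π ^ α) ^ m * ((Ψ / algebraMap K E π ^ m)⁻¹) ^ α := by
        have hq : (algebraMap K E π ^ α) ^ m ≠ 0 := pow_ne_zero _ (pow_ne_zero _ hp0)
        rw [div_pow, inv_div, div_pow, ← pow_mul (algebraMap K E π) m α, mul_comm m α, pow_mul,
          inv_pow]
        field_simp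
      rw [e]
      exact (T.R w').O.mul_mem _ _ ((T.R w').O.pow_mem hbase m) ((T.R w').O.pow_mem hinv α)
    · exact (T.R w').O.mul_mem _ _
        ((T.R w').O.pow_mem ((T.R w').O.mul_mem _ _ (hz.1 w') ((T.R w').O.pow_mem (hε.1 w') α)) m)
        ((T.R w').O.pow_mem ((T.R w').inv_mem_of_red_ne_zero h0) α)
  -- (2)
  have hmul : ∀ u v : E, (∃ a : ℕ, u ∈ riemannRochSpace (a • poleDiv (K := K) ξ)) →
      (∃ a : ℕ, v ∈ riemannRochSpace (a • poleDiv (K := K) ξ)) →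
      ∃ a : ℕ, u * v ∈ riemannRochSpace (a • poleDiv (K := K) ξ) := by
    rintro u v ⟨a, ha⟩ ⟨b, hb⟩
    refine ⟨a + b, ?_⟩
    rw [add_nsmul]
    exact mul_mem_L ha hb
  have hpow : ∀ (u : E) (n : ℕ), (∃ a : ℕ, u ∈ riemannRochSpace (a • poleDiv (K := K) ξ)) →
      ∃ a : ℕ, u ^ n ∈ riemannRochSpace (a • poleDiv (K := K) ξ) := by
    rintro u n ⟨a, ha⟩
    refine ⟨n * a, ?_⟩
    rw [mul_smul]
    exact pow_mem_L ha n
  have h2 : ∃ a : ℕ, (z * ε ^ α) ^ m * (Ψ⁻¹) ^ α ∈ riemannRochSpace (a • poleDiv (K := K) ξ) :=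
    hmul _ _ (hpow _ m (hmul _ _ hz.2 (hpow _ α hε.2))) (hpow _ α hreg)
  -- (3)
  have h3 := InB.ord_nonneg hS hnc hdeg ⟨h1, h2⟩ j P hP
  -- (4)
  have hzε : z * ε ^ α ∈ (T.R j).O :=
    (T.R j).O.mul_mem _ _ (hz.1 j) ((T.R j).O.pow_mem (hε.1 j) α)
  rw [(T.R j).red_mul ((T.R j).O.pow_mem hzε m)
      ((T.R j).O.pow_mem ((T.R j).inv_mem_of_red_ne_zero hunit) α),
    (T.R j).red_pow, (T.R j).red_pow, (T.R j).red_inv,
    (T.R j).red_mul (hz.1 j) ((T.R j).O.pow_mem (hε.1 j) α), (T.R j).red_pow] at h3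
  by_cases hz0 : (T.R j).red z = 0
  · exact Or.inl hz0
  right
  have hordpow : ∀ (f : Fb j) (n : ℕ), P.ord (f ^ n) = n * P.ord f := fun f n => by
    rw [← zpow_natCast, P.ord_zpow]
  rw [P.ord_mul (pow_ne_zero _ (mul_ne_zero hz0 (pow_ne_zero _ hεj)))
      (pow_ne_zero _ (inv_ne_zero hunit)), hordpow, hordpow,
    P.ord_mul hz0 (pow_ne_zero _ hεj), hordpow, hεP, P.ord_inv] at h3
  have hm' : (0 : ℤ) < m := by exact_mod_cast hm
  have hα' : (0 : ℤ) ≤ α := Int.natCast_nonneg α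
  have h4 : (α : ℤ) * m ≤ α * P.ord ((T.R j).red Ψ) := mul_le_mul_of_nonneg_left hord hα'
  have h5 : (m : ℤ) * α ≤ m * P.ord ((T.R j).red z) := by linarith
  exact le_of_mul_le_mul_left h5 hm'

/-- LEAF VN2.  A regular function which is `0` on all the components which do not contain the node `e`, with the value `1` at the two branches of `e`.
Copy the proof of `S33.Cover.IsPreNodal.exists_indicator` (`S33/Cover/Unique.lean`, 40 lines): it produces a bounded family `z` with the value `1` at the two branches of `e` and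
`0` at all the other branches.  Replace `z` by `z' w := if w = N.i₁ e ∨ w = N.i₂ e then z w else 0` : still bounded (`Submodule.zero_mem`), and glued: at a node `e' ≠ e` the values
of `z'` at the two branches are `0` (value of `z`, or `ev P 0 = 0` : `ev_eq_of P (Or.inl (map_zero _).symm)`), at `e` they are the values of `z`.
`(h.mem_iff (a₀ + a₂) 0 _ z').2`, `bipole_zero_right`. -/
theorem exists_eps_K {x : E} {N : NodeData k Fb Nd} {a₀ : ℕ} (h : IsPreNodal T x N a₀) (e : Nd) :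
    ∃ (a : ℕ) (y : E), y ∈ riemannRochSpace (a • poleDiv (K := K) x) ∧ y ∈ T.O ∧
      (∀ w, w ≠ N.i₁ e → w ≠ N.i₂ e → (T.R w).red y = 0) ∧
      ev (N.p₁ e) ((T.R (N.i₁ e)).red y) = 1 ∧ ev (N.p₂ e) ((T.R (N.i₂ e)).red y) = 1 := by
  classical
  have hN : N.Adapted (T.red x) := ⟨h.inj, h.nonconst, h.unit₁, h.unit₂⟩
  obtain ⟨a₂, h₂⟩ := exists_bounded_values (T.red x) h.nonconst (Glued_brSet N)
    (fun i P hP => Glued_ord_of_mem_brSet hN i P hP)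
  let nd : Nd ⊕ Nd → Nd := Sum.elim id id
  let val : ∀ i, Place k (Fb i) → k := fun i P =>
    if ∃ s : Nd ⊕ Nd, N.branch s = ⟨i, P⟩ ∧ nd s = e then 1 else 0
  have hval : ∀ s : Nd ⊕ Nd, val (N.branch s).1 (N.branch s).2 = if nd s = e then 1 else 0 := by
    intro s
    by_cases hs : nd s = e
    · rw [if_pos hs]
      exact if_pos ⟨s, rfl, hs⟩
    · rw [if_neg hs]
      refine if_neg ?_
      rintro ⟨s', hs', he⟩
      have : s' = s := h.inj hs'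
      exact hs (this ▸ he)
  obtain ⟨z, hzB, hz⟩ := h₂ (a₀ + a₂) 0 (by omega) val
  have hzs : ∀ s : Nd ⊕ Nd, ev (N.branch s).2 (z (N.branch s).1) = if nd s = e then 1 else 0 := by
    intro s
    rw [← hval s]
    exact hz _ _ ((Glued_mem_brSet N _ _).2 ⟨s, rfl⟩)
  have hz1 : ∀ e', ev (N.p₁ e') (z (N.i₁ e')) = if e' = e then 1 else 0 := fun e' => hzs (Sum.inl e')
  have hz2 : ∀ e', ev (N.p₂ e') (z (N.i₂ e')) = if e' = e then 1 else 0 := fun e' => hzs (Sum.inr e')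
  let z' : ∀ w, Fb w := fun w => if w = N.i₁ e ∨ w = N.i₂ e then z w else 0
  have hz'B : BoundedBy k (T.red x) (a₀ + a₂) 0 z' := by
    intro i
    show (if i = N.i₁ e ∨ i = N.i₂ e then z i else 0) ∈ _
    split_ifs
    · exact hzB i
    · exact Submodule.zero_mem _
  have hz'1 : ∀ e', ev (N.p₁ e') (z' (N.i₁ e')) = if e' = e then 1 else 0 := by
    intro e'
    show ev (N.p₁ e') (if N.i₁ e' = N.i₁ e ∨ N.i₁ e' = N.i₂ e then z (N.i₁ e') else 0) = _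
    by_cases hc : N.i₁ e' = N.i₁ e ∨ N.i₁ e' = N.i₂ e
    · rw [if_pos hc, hz1]
    · rw [if_neg hc, ev_zero, if_neg]
      rintro rfl
      exact hc (Or.inl rfl)
  have hz'2 : ∀ e', ev (N.p₂ e') (z' (N.i₂ e')) = if e' = e then 1 else 0 := by
    intro e'
    show ev (N.p₂ e') (if N.i₂ e' = N.i₁ e ∨ N.i₂ e' = N.i₂ e then z (N.i₂ e') else 0) = _
    by_cases hc : N.i₂ e' = N.i₁ e ∨ N.i₂ e' = N.i₂ e
    · rw [if_pos hc, hz2]
    · rw [if_neg hc, ev_zero, if_neg]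
      rintro rfl
      exact hc (Or.inr rfl)
  have hgl : N.Glued 1 z' := by
    intro e'
    rw [hz'1, hz'2]
    simp
  obtain ⟨y, hyL, hyO, hy⟩ := (h.mem_iff (a₀ + a₂) 0 (by omega) z').2 ⟨hz'B, hgl⟩
  rw [bipole_zero_right] at hyL
  have hyw : ∀ w, (T.R w).red y = z' w := fun w => congrFun hy w
  refine ⟨_, y, hyL, hyO, ?_, ?_, ?_⟩
  · intro w h1 h2
    rw [hyw]
    exact if_neg (by rintro (h' | h'); exacts [h1 h', h2 h'])
  · rw [hyw, hz'1, if_pos rfl]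
  · rw [hyw, hz'2, if_pos rfl]

variable {B : BC K0 E0 K E} {ϖ : K0}

/-- LEAF VN3.  The same with a RATIONAL function.  `exists_eps_K h e` : `a`, `y`.  `V := riemannRochSpace (a • poleDiv x)` is finite dimensional (instance, as in `BC.riemann`) and `Γ`-stable:
`B.smul_mem_rr ((B.inv_poleDiv x0).nsmul B a) hg hu` (after `subst hx`/`rw [← hx]`).  `le_span_of_stable B hR.indep V _`, `hR.exists_lift h.cart V _ hyL hyO` : `ε`, with
`T.red (β ε) = T.red y` (`congrFun _ w`).  (`Nonempty Ω` : `h.cart.nonempty`.) -/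
theorem Rat.exists_eps (hR : Rat T B ϖ) {x : E} {N : NodeData k Fb Nd} {a₀ : ℕ}
    (h : IsPreNodal T x N a₀) {x0 : E0} (hx : B.β x0 = x) (e : Nd) :
    ∃ ε : E0, InB T x (B.β ε) ∧
      (∀ w, w ≠ N.i₁ e → w ≠ N.i₂ e → (T.R w).red (B.β ε) = 0) ∧
      ev (N.p₁ e) ((T.R (N.i₁ e)).red (B.β ε)) = 1 ∧
      ev (N.p₂ e) ((T.R (N.i₂ e)).red (B.β ε)) = 1 := by
  subst hx
  have hne : Nonempty Ω := h.cart.nonempty
  obtain ⟨a, y, hyL, hyO, hy0, hy1, hy2⟩ := exists_eps_K h e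
  have hst : ∀ g ∈ B.Γ, ∀ u ∈ riemannRochSpace (a • poleDiv (K := K) (B.β x0)),
      g • u ∈ riemannRochSpace (a • poleDiv (K := K) (B.β x0)) :=
    fun g hg u hu => B.smul_mem_rr ((B.inv_poleDiv x0).nsmul B a) hg hu
  have hV := le_span_of_stable B hR.indep (riemannRochSpace (a • poleDiv (K := K) (B.β x0))) hst
  obtain ⟨ε, hεV, hεO, hεr⟩ := hR.exists_lift h.cart _ hV hyL hyO
  have hr : ∀ w, (T.R w).red (B.β ε) = (T.R w).red y := fun w => congrFun hεr w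
  refine ⟨ε, ⟨hεO, a, hεV⟩, fun w h1 h2 => ?_, ?_, ?_⟩
  · rw [hr, hy0 w h1 h2]
  · rw [hr, hy1]
  · rw [hr, hy2]

theorem inB_of_le {x ξ y : E} (hy : InB T x y)
    (hxξ : ∀ P : Place K E, 0 ≤ P.ord ξ → 0 ≤ P.ord x) : InB T ξ y := by
  refine ⟨hy.1, ?_⟩
  rw [exists_mem_L_poleDiv_iff]
  intro P hP
  exact (exists_mem_L_poleDiv_iff _ _).1 hy.2 P (hxξ P hP)

/-- **(V') from the meter.** -/
theorem van_of_meter (hR : Rat T B ϖ) {x : E} {N : NodeData k Fb Nd} {a₀ : ℕ}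
    (hN : IsPreNodal T x N a₀) {x0 ξ0 : E0} (hx : B.β x0 = x) (hξ : IsCoord T (B.β ξ0) N)
    (hxξ : ∀ P : Place K E, 0 ≤ P.ord (B.β ξ0) → 0 ≤ P.ord x) {m : ℕ} {Ψ : Ω → E}
    (hΨ : IsMeter T (algebraMap K0 K ϖ) (B.β ξ0) N m Ψ) :
    Van T (algebraMap K0 K ϖ) (B.β ξ0) N := by
  intro α z e hz
  obtain ⟨ε, hεreg, hε0, hε1, hε2⟩ := hR.exists_eps hN hx e
  have hε' : InB T (B.β ξ0) (B.β ε) := inB_of_le hεreg hxξ
  have hπ : algebraMap K0 K ϖ ≠ 0 := by simpa using hR.ne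
  have hn1 := (ev_ne_zero_iff (N.p₁ e) (InB.ord_nonneg hN.sep hξ.nonconst hξ.deg hε' (N.i₁ e)
    (N.p₁ e) (hξ.node₁ e))).1 (by rw [hε1]; exact one_ne_zero)
  have hn2 := (ev_ne_zero_iff (N.p₂ e) (InB.ord_nonneg hN.sep hξ.nonconst hξ.deg hε' (N.i₂ e)
    (N.p₂ e) (hξ.node₂ e))).1 (by rw [hε2]; exact one_ne_zero)
  constructor
  · intro hα
    refine van_aux hN.sep hξ.nonconst hξ.deg hπ hΨ.pos (N.i₂ e) (N.i₁ e) (N.p₁ e) (hξ.node₁ e)
      (hΨ.dich (N.i₂ e)) (hΨ.reg _) (hΨ.unit₁ e) (hΨ.ord₁ e) hε' ?_ hn1.1 hn1.2 α hz hα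
    intro w' hw' h0
    have hne : w' ≠ N.i₁ e := by
      rintro rfl
      exact hΨ.unit₁ e h0
    exact hR.factD.div_mem hR.toBase w' (hε'.1 w') (hε0 w' hne hw')
  · intro hα
    refine van_aux hN.sep hξ.nonconst hξ.deg hπ hΨ.pos (N.i₁ e) (N.i₂ e) (N.p₂ e) (hξ.node₂ e)
      (hΨ.dich (N.i₁ e)) (hΨ.reg _) (hΨ.unit₂ e) (hΨ.ord₂ e) hε' ?_ hn2.1 hn2.2 α hz hα
    intro w' hw' h0
    have hne : w' ≠ N.i₂ e := by
      rintro rfl
      exact hΨ.unit₂ e h0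
    exact hR.factD.div_mem hR.toBase w' (hε'.1 w') (hε0 w' hw' hne)

end Fermat.Agent.MR.PLC.Abs
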